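/-
Program B' (S34), helper30: the SKELETON of the geometric chain.

Root: `Fermat.Agent.S34.H27.GeoTarget` (hence `B1Statement` by `H27.b1Statement_of_geoTarget`,
hence the frozen S34 by `H64.isUnipotentOnInertiaAt_of_leaves`).

Leaves (Props defined here or in the files of their owners):
* (L7)  `DictStatement`     : the function-level target `KummerAt M q p` gives `B1Exact M q p`;
* (L3)  PROVED              : `H10.exists_pow_mul_mem_of_cartier` (Cech + Step 2);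
* (L4)  `LocalAbsStatement` : Step 1 in abstract form (Krull property of a normal chart);
* (L1 + L2 + L5 + L6) `ModelStatement` : the two-chart model of `X_0(M)` over a discrete
  valuation ring, with the local divisor data `HLoc` at every closed point of the special fibre.
  Its inputs are `H64.TwoGaussStatement`, `H64.TwoExtStatement` (L1), `H46.nodeStatement` (L2,
  proved), the descent (L5) and the charts (L6).

`geoTarget_of_leaves : DictStatement → LocalAbsStatement → ModelStatement → GeoTarget`.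
-/
import Fermat.Agent.S34.H27.GeoTarget
import Fermat.Agent.S34.H10.Step2
import Fermat.Agent.S34.H64.TwoGaussDefs
import Fermat.Agent.S34.H64.TwoExtDefs

set_option autoImplicit false
set_option linter.style.haveILetI false

open AlgebraicCurve ModularCurve

noncomputable section

namespace Fermat.Agent.S34.H30

open Fermat.Agent.S34.H27 Fermat.Agent.S18.H47 Fermat.Agent.S18.H86

/-- The function field of `X_0(M)` over `ℚ̄`. -/
abbrev FF (M : ℕ) : Type := laurentBaseChange Qb (modularFunctionFieldFull M)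

/-- The arithmetic Galois action on the function field. -/
abbrev gal (M : ℕ) (σ : Qb ≃ₐ[ℚ] Qb) : FF M ≃+* FF M :=
  arithmeticRingAut (modularFunctionFieldFull M) σ

/-- The hypotheses on the level in `GeoTarget`. -/
def LevelHyp (M q p r : ℕ) : Prop :=
  0 < M ∧ q.Prime ∧ p.Prime ∧ q ≠ p ∧ q ∣ M ∧ ¬ q ^ 2 ∣ M ∧ r.Prime ∧ r % 12 = 11 ∧ r ∣ M ∧
    ¬ r ^ 2 ∣ M ∧ r ≠ q ∧ r ≠ p ∧ M / r + q + p < r

/-- **The function-level target**: for `u` whose divisor is divisible by `p ^ n`, and `τ` in an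
inertia group at `q`, the function `τ(v) / v`, `v = τ(u) / u`, is a constant times a
`p ^ n`-th power. -/
def KummerAt (M q p : ℕ) : Prop :=
  ∀ (n : ℕ) (A : ValuationSubring Qb), A.LiesOverPrime q → ∀ τ ∈ A.inertiaSubgroupIn ℚ,
    ∀ u : FF M, u ≠ 0 → (∀ v : Place Qb (FF M), ((p ^ n : ℕ) : ℤ) ∣ v.ord u) →
      ∃ (c : Qb) (w : FF M), c ≠ 0 ∧ w ≠ 0 ∧
        gal M τ (gal M τ u / u) / (gal M τ u / u) = algebraMap Qb (FF M) c * w ^ (p ^ n)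

/-- **Leaf (L7), the dictionary**: the function-level target gives the exact statement on the
torsion of the Jacobian. -/
def DictStatement : Prop :=
  ∀ M q p : ℕ, 0 < M → q.Prime → p.Prime → KummerAt M q p → B1Exact M q p

/-- The local divisor datum of `u` at a closed point `x` of a chart `C`: a function `f` such that
`u / f ^ m` is a unit at every prime of `C` below `x` not containing `ϖ` (every horizontal prime
through `x`). -/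
def HLoc {A₀ F₀ : Type} [CommRing A₀] [Field F₀] [Algebra A₀ F₀] (ϖ : A₀) (m : ℕ)
    (C : Subalgebra A₀ F₀) (x : Ideal ↥C) (u : F₀) : Prop :=
  ∃ f : F₀, f ≠ 0 ∧ ∀ P : Ideal ↥C, P.IsPrime → P ≤ x → algebraMap A₀ ↥C ϖ ∉ P →
    ∃ a b : ↥C, a ∉ P ∧ b ∉ P ∧ u * (b : F₀) = (a : F₀) * f ^ m

/-- **Leaf (L4), Step 1 in abstract form**: on a normal noetherian chart `C`, saturated in the
semi-local ring `O` of the special fibre, with an automorphism `τ` trivial modulo `ϖ` and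
preserving the valuations of `O`: if `u` has the local divisor datum `HLoc` at `x`, then
`τ u / u` is a unit at `x` times an `m`-th power (the Cartier condition of
`H10.exists_pow_mul_mem_of_cartier`). -/
def LocalAbsStatement : Prop :=
  ∀ (A₀ F₀ : Type) [CommRing A₀] [IsDomain A₀] [IsDiscreteValuationRing A₀] [Field F₀]
    [Algebra A₀ F₀] [FaithfulSMul A₀ F₀] (ϖ : A₀), Irreducible ϖ → ∀ (m : ℕ)
    (C O : Subalgebra A₀ F₀) [IsIntegrallyClosed ↥C] [IsNoetherianRing ↥C],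
    (∀ y : F₀, ∃ a ∈ C, ∃ b ∈ C, b ≠ 0 ∧ y = a / b) → C ≤ O →
    (∀ y ∈ O, ϖ • y ∈ C → y ∈ C) →
    ∀ τ : F₀ ≃+* F₀, (∀ c : F₀, τ c ∈ C ↔ c ∈ C) → (∀ y ∈ O, τ y ∈ O) →
    (∀ y ∈ O, Dv ϖ O (τ y - y)) →
    (∃ e : A₀ˣ, τ (algebraMap A₀ F₀ ϖ) = algebraMap A₀ F₀ (e * ϖ)) →
    (∀ y : F₀, y ≠ 0 → τ y / y ∈ O ∧ y / τ y ∈ O) →
    ∀ x : Ideal ↥C, x.IsMaximal → algebraMap A₀ ↥C ϖ ∈ x → ∀ u : F₀, u ≠ 0 → HLoc ϖ m C x u →
      ∃ g : F₀, g ≠ 0 ∧ ∃ a b : ↥C, a ∉ x ∧ b ∉ x ∧ τ u / u * (b : F₀) = (a : F₀) * g ^ m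

/-- The data of a two-chart model of `X_0(M)` over a discrete valuation ring. -/
structure ChartData (M : ℕ) : Type 1 where
  /-- the base discrete valuation ring -/
  A₀ : Type
  [instCR : CommRing A₀]
  [instDom : IsDomain A₀]
  [instDVR : IsDiscreteValuationRing A₀]
  /-- the function field over the fraction field of `A₀` -/
  F₀ : Type
  [instField : Field F₀]
  [instAlg : Algebra A₀ F₀]
  [instFaith : FaithfulSMul A₀ F₀]
  /-- a uniformiser -/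
  ϖ : A₀
  /-- the coordinate -/
  j : F₀
  /-- the finite chart -/
  C₁ : Subalgebra A₀ F₀
  /-- the chart at infinity -/
  C₂ : Subalgebra A₀ F₀
  /-- the semi-local ring of the generic points of the special fibre -/
  O : Subalgebra A₀ F₀
  /-- the action of the inertia element -/
  τ₀ : F₀ ≃+* F₀
  /-- the embedding into the function field over `ℚ̄` -/
  ι : F₀ →+* FF M

attribute [instance] ChartData.instCR ChartData.instDom ChartData.instDVR ChartData.instField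
  ChartData.instAlg ChartData.instFaith

/-- The properties of a two-chart model: the hypotheses of `H10.exists_pow_mul_mem_of_cartier`
(L3), of `LocalAbsStatement` (L4), and the comparison with the function field over `ℚ̄`. -/
structure ChartData.Good {M : ℕ} (D : ChartData M) (m : ℕ) (τ : FF M ≃+* FF M) : Prop where
  irr : Irreducible D.ϖ
  unit_m : IsUnit (m : D.A₀)
  j_ne : D.j ≠ 0
  icl₁ : IsIntegrallyClosed ↥D.C₁
  icl₂ : IsIntegrallyClosed ↥D.C₂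
  noeth₁ : IsNoetherianRing ↥D.C₁
  noeth₂ : IsNoetherianRing ↥D.C₂
  j_mem₁ : D.j ∈ D.C₁
  j_mem₂ : D.j⁻¹ ∈ D.C₂
  fin₁ : ∃ s : Finset D.F₀, (D.C₁ : Set D.F₀) =
    Submodule.span (Algebra.adjoin D.A₀ ({D.j} : Set D.F₀)) (s : Set D.F₀)
  frac₁ : ∀ x : D.F₀, ∃ a ∈ D.C₁, ∃ b ∈ D.C₁, b ≠ 0 ∧ x = a / b
  frac₂ : ∀ x : D.F₀, ∃ a ∈ D.C₂, ∃ b ∈ D.C₂, b ≠ 0 ∧ x = a / b
  glue : ∀ x : D.F₀, (∃ n : ℕ, D.j ^ n * x ∈ D.C₁) ↔ (∃ n : ℕ, D.j⁻¹ ^ n * x ∈ D.C₂)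
  le₁ : D.C₁ ≤ D.O
  le₂ : D.C₂ ≤ D.O
  j_inv_mem : D.j⁻¹ ∈ D.O
  not_unit : ¬ Dv D.ϖ D.O 1
  root : ∀ z : D.F₀, z ^ m ∈ D.O → z ∈ D.O
  sat₁ : ∀ x ∈ D.O, D.ϖ • x ∈ D.C₁ → x ∈ D.C₁
  sat₂ : ∀ x ∈ D.O, D.ϖ • x ∈ D.C₂ → x ∈ D.C₂
  const : ∀ c₁ ∈ D.C₁, ∀ c₂ ∈ D.C₂, Dv D.ϖ D.O (c₁ - c₂) →
    ∃ a : D.A₀, Dv D.ϖ D.O (c₁ - algebraMap D.A₀ D.F₀ a)
  τ_mem₁ : ∀ c : D.F₀, D.τ₀ c ∈ D.C₁ ↔ c ∈ D.C₁
  τ_mem₂ : ∀ c : D.F₀, D.τ₀ c ∈ D.C₂ ↔ c ∈ D.C₂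
  τ_mem : ∀ y ∈ D.O, D.τ₀ y ∈ D.O
  τ_sub : ∀ y ∈ D.O, Dv D.ϖ D.O (D.τ₀ y - y)
  τ_unif : ∃ e : D.A₀ˣ, D.τ₀ (algebraMap D.A₀ D.F₀ D.ϖ) = algebraMap D.A₀ D.F₀ (e * D.ϖ)
  τ_val : ∀ y : D.F₀, y ≠ 0 → D.τ₀ y / y ∈ D.O ∧ y / D.τ₀ y ∈ D.O
  /-- `ι` intertwines `τ₀` with the Galois action -/
  ι_τ : ∀ y : D.F₀, D.ι (D.τ₀ y) = τ (D.ι y)
  /-- global functions are constants -/
  ι_const : ∀ c ∈ D.C₁, c ∈ D.C₂ → ∃ a : Qb, D.ι c = algebraMap Qb (FF M) a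

/-- **Leaf (L1 + L2 + L5 + L6), the model**: for every function `u` on `X_0(M)` over `ℚ̄` whose
divisor is divisible by `p ^ n`, there is a two-chart model over a discrete valuation ring on
which `u` is defined and has the local divisor datum `HLoc` at every closed point of the special
fibre of both charts. -/
def ModelStatement : Prop :=
  ∀ M q p r : ℕ, LevelHyp M q p r →
    ∀ (n : ℕ) (A : ValuationSubring Qb), A.LiesOverPrime q → ∀ τ ∈ A.inertiaSubgroupIn ℚ,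
      ∀ u : FF M, u ≠ 0 → (∀ v : Place Qb (FF M), ((p ^ n : ℕ) : ℤ) ∣ v.ord u) →
        ∃ D : ChartData M, D.Good (p ^ n) (gal M τ) ∧ ∃ u₀ : D.F₀, D.ι u₀ = u ∧
          (∀ x : Ideal ↥D.C₁, x.IsMaximal → algebraMap D.A₀ ↥D.C₁ D.ϖ ∈ x →
            HLoc D.ϖ (p ^ n) D.C₁ x u₀) ∧
          (∀ x : Ideal ↥D.C₂, x.IsMaximal → algebraMap D.A₀ ↥D.C₂ D.ϖ ∈ x →
            HLoc D.ϖ (p ^ n) D.C₂ x u₀)

/-- Internal node: the function-level target from (L3) [proved], (L4) and the model. -/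
theorem kummerAt_of_leaves (hloc : LocalAbsStatement) (hmodel : ModelStatement)
    (M q p r : ℕ) (hL : LevelHyp M q p r) : KummerAt M q p := by
  intro n A hA τ hτ u hu hdiv
  obtain ⟨D, hD, u₀, hu₀, h₁, h₂⟩ := hmodel M q p r hL n A hA τ hτ u hu hdiv
  haveI := hD.icl₁
  haveI := hD.icl₂
  haveI := hD.noeth₁
  haveI := hD.noeth₂
  have hu₀0 : u₀ ≠ 0 := by
    rintro rfl
    exact hu (by rw [← hu₀, map_zero])
  have hτu₀0 : D.τ₀ u₀ ≠ 0 := (map_ne_zero D.τ₀).2 hu₀0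
  set v₀ : D.F₀ := D.τ₀ u₀ / u₀ with hv₀
  have hv₀0 : v₀ ≠ 0 := div_ne_zero hτu₀0 hu₀0
  have hval := hD.τ_val u₀ hu₀0
  -- the Cartier condition from (L4)
  have hc₁ : ∀ x : Ideal ↥D.C₁, x.IsMaximal → algebraMap D.A₀ ↥D.C₁ D.ϖ ∈ x →
      ∃ g : D.F₀, g ≠ 0 ∧ ∃ a b : ↥D.C₁, a ∉ x ∧ b ∉ x ∧ v₀ * (b : D.F₀) = (a : D.F₀) * g ^ (p ^ n) :=
    fun x hx hϖx => hloc D.A₀ D.F₀ D.ϖ hD.irr (p ^ n) D.C₁ D.O hD.frac₁ hD.le₁ hD.sat₁ D.τ₀
      hD.τ_mem₁ hD.τ_mem hD.τ_sub hD.τ_unif hD.τ_val x hx hϖx u₀ hu₀0 (h₁ x hx hϖx)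
  have hc₂ : ∀ x : Ideal ↥D.C₂, x.IsMaximal → algebraMap D.A₀ ↥D.C₂ D.ϖ ∈ x →
      ∃ g : D.F₀, g ≠ 0 ∧ ∃ a b : ↥D.C₂, a ∉ x ∧ b ∉ x ∧ v₀ * (b : D.F₀) = (a : D.F₀) * g ^ (p ^ n) :=
    fun x hx hϖx => hloc D.A₀ D.F₀ D.ϖ hD.irr (p ^ n) D.C₂ D.O hD.frac₂ hD.le₂ hD.sat₂ D.τ₀
      hD.τ_mem₂ hD.τ_mem hD.τ_sub hD.τ_unif hD.τ_val x hx hϖx u₀ hu₀0 (h₂ x hx hϖx)
  -- (L3) + Step 2
  have hε : v₀ / (1 : D.F₀) ^ (p ^ n) ∈ D.O := by
    rw [one_pow, div_one]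
    exact hval.1
  have hε' : (v₀ / (1 : D.F₀) ^ (p ^ n))⁻¹ ∈ D.O := by
    rw [one_pow, div_one, hv₀, inv_div]
    exact hval.2
  obtain ⟨h, hh0, hh₁, hh₂⟩ := Fermat.Agent.S34.H10.exists_pow_mul_mem_of_cartier D.ϖ hD.irr
    (p ^ n) hD.unit_m D.j hD.j_ne D.C₁ D.C₂ hD.j_mem₁ hD.j_mem₂ hD.fin₁ hD.frac₁ hD.glue D.O
    hD.le₁ hD.le₂ hD.j_inv_mem hD.not_unit hD.root hD.sat₁ hD.sat₂ hD.const D.τ₀
    (fun c hc => (hD.τ_mem₁ c).2 hc) (fun c hc => (hD.τ_mem₂ c).2 hc) hD.τ_mem hD.τ_sub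
    v₀ 1 hv₀0 one_ne_zero hε hε' hc₁ hc₂
  obtain ⟨c, hc⟩ := hD.ι_const _ hh₁ hh₂
  have hιh : D.ι h ≠ 0 := (map_ne_zero D.ι).2 hh0
  have hιv : D.ι v₀ = gal M τ u / u := by
    rw [hv₀, map_div₀, hD.ι_τ, hu₀]
  have hτv₀0 : D.τ₀ v₀ ≠ 0 := (map_ne_zero D.τ₀).2 hv₀0
  have hιτv : D.ι (D.τ₀ v₀ / v₀) = gal M τ (gal M τ u / u) / (gal M τ u / u) := by
    rw [map_div₀ D.ι, hD.ι_τ, hιv]
  have hkey : gal M τ (gal M τ u / u) / (gal M τ u / u) * D.ι h ^ (p ^ n) =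
      algebraMap Qb (FF M) c := by
    rw [← hc, map_mul D.ι, map_pow D.ι, hιτv]
  have hlhs0 : gal M τ (gal M τ u / u) / (gal M τ u / u) ≠ 0 := by
    rw [← hιτv]
    exact (map_ne_zero D.ι).2 (div_ne_zero hτv₀0 hv₀0)
  refine ⟨c, (D.ι h)⁻¹, ?_, inv_ne_zero hιh, ?_⟩
  · rintro rfl
    rw [map_zero] at hkey
    exact mul_ne_zero hlhs0 (pow_ne_zero _ hιh) hkey
  · rw [← hkey, inv_pow, mul_assoc, mul_inv_cancel₀ (pow_ne_zero _ hιh), mul_one]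

/-- **The root of the skeleton**: the geometric target of Program B' from the three leaves. -/
theorem geoTarget_of_leaves (hdict : DictStatement) (hloc : LocalAbsStatement)
    (hmodel : ModelStatement) : GeoTarget := by
  intro M q p r hM hq hp hqp hqM hq2 hr hr12 hrM hr2 hrq hrp hbig
  exact hdict M q p hM hq hp (kummerAt_of_leaves hloc hmodel M q p r
    ⟨hM, hq, hp, hqp, hqM, hq2, hr, hr12, hrM, hr2, hrq, hrp, hbig⟩)

end Fermat.Agent.S34.H30
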