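/-
Program B' (S34), helper30: the leaf (L7) `DictStatement` of the skeleton is PROVED, from
helper92's dictionary `H92.b1Exact_of_kummer`.
-/
import Fermat.Agent.S34.H30.Skeleton
import Fermat.Agent.S34.H92.Dict

set_option autoImplicit false

open AlgebraicCurve ModularCurve

noncomputable section

namespace Fermat.Agent.S34.H30

open Fermat.Agent.S34.H27

/-- **Leaf (L7)** of the skeleton: the function-level target gives the exact statement on the
torsion of the Jacobian. -/
theorem dictStatement : DictStatement := by
  intro M q p _ _ hp hk
  refine Fermat.Agent.S34.H92.b1Exact_of_kummer M q p hp.ne_zero (fun n A hA τ hτ u hu hdiv => ?_)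
  obtain ⟨c, w, hc, hw, heq⟩ := hk n A hA τ hτ u hu hdiv
  exact ⟨w, hw, fun v => Fermat.Agent.S34.H92.ord_eq_of_eq_smul_pow (p ^ n) hc hw heq v⟩

/-- The root of the skeleton with (L7) discharged. -/
theorem geoTarget_of_local_model (hloc : LocalAbsStatement) (hmodel : ModelStatement) :
    GeoTarget :=
  geoTarget_of_leaves dictStatement hloc hmodel

end Fermat.Agent.S34.H30
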