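/-
Program B' (S34), helper30: the MODEL leaf in its final (two-valuation, Cartier) form.

* `VData M`, `VData.Good` : a two-chart model of `X_0(M)` over a discrete valuation ring with its
  two Gauss valuation rings `V₁`, `V₂`; `Good` = the hypotheses of
  `H77.exists_pow_mul_mem_of_cartier_two_inter` (Step 2, proved) and of `H7.step1_chart`
  (Step 1, proved), and the comparison with the function field over `ℚ̄`.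
* `VData.Div` : the divisibility of the divisor of `u₀` at the horizontal discrete valuation
  rings.
* `PointOK` : the local certificate at a closed point `x` of a chart: the local ring is factorial,
  or every horizontal prime through `x` in the support of `u₀` has a saturated generator.
* `LocalModelStatement` : the model leaf;
  `geoTarget2_of_localModel : LocalModelStatement → H27.GeoTarget2`  (no other leaf).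
-/
import Fermat.Agent.S34.H30.DictClose
import Fermat.Agent.S34.H27.Skeleton2
import Fermat.Agent.S34.H77.TwoGaussConn
import Fermat.Agent.S34.H7.Step1Supply
import Fermat.Agent.S34.H54.KrullAut

set_option autoImplicit false
set_option linter.style.haveILetI false

open AlgebraicCurve ModularCurve

noncomputable section

namespace Fermat.Agent.S34.H30

open Fermat.Agent.S34.H27 Fermat.Agent.S34.H10 Fermat.Agent.S34.H7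

/-- The data of a two-chart model of `X_0(M)` over a discrete valuation ring, with two valuation
subrings (the generic points of the special fibre). -/
structure VData (M : ℕ) : Type 1 where
  /-- the base discrete valuation ring -/
  A₀ : Type
  [instCR : CommRing A₀]
  [instDom : IsDomain A₀]
  [instDVR : IsDiscreteValuationRing A₀]
  /-- the function field over the fraction field of `A₀` -/
  F₀ : Type
  [instField : Field F₀]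
  [instAlg : Algebra A₀ F₀]
  [instFaith : FaithfulSMul A₀ F₀]
  /-- a uniformiser -/
  ϖ : A₀
  /-- the coordinate -/
  j : F₀
  /-- the finite chart -/
  C₁ : Subalgebra A₀ F₀
  /-- the chart at infinity -/
  C₂ : Subalgebra A₀ F₀
  /-- the first Gauss valuation ring -/
  V₁ : ValuationSubring F₀
  /-- the second Gauss valuation ring -/
  V₂ : ValuationSubring F₀
  /-- the action of the inertia element -/
  τ₀ : F₀ ≃+* F₀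
  /-- the embedding into the function field over `ℚ̄` -/
  ι : F₀ →+* FF M

attribute [instance] VData.instCR VData.instDom VData.instDVR VData.instField
  VData.instAlg VData.instFaith

/-- The properties of a two-valuation model. -/
structure VData.Good {M : ℕ} (D : VData M) (m : ℕ) (τ : FF M ≃+* FF M) : Prop where
  irr : Irreducible D.ϖ
  unit_m : IsUnit (m : D.A₀)
  j_ne : D.j ≠ 0
  icl₁ : IsIntegrallyClosed ↥D.C₁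
  icl₂ : IsIntegrallyClosed ↥D.C₂
  noeth₁ : IsNoetherianRing ↥D.C₁
  noeth₂ : IsNoetherianRing ↥D.C₂
  j_mem₁ : D.j ∈ D.C₁
  j_mem₂ : D.j⁻¹ ∈ D.C₂
  fin₁ : ∃ s : Finset D.F₀, (D.C₁ : Set D.F₀) =
    Submodule.span (Algebra.adjoin D.A₀ ({D.j} : Set D.F₀)) (s : Set D.F₀)
  frac₁ : ∀ x : D.F₀, ∃ a ∈ D.C₁, ∃ b ∈ D.C₁, b ≠ 0 ∧ x = a / b
  frac₂ : ∀ x : D.F₀, ∃ a ∈ D.C₂, ∃ b ∈ D.C₂, b ≠ 0 ∧ x = a / b
  glue : ∀ x : D.F₀, (∃ n : ℕ, D.j ^ n * x ∈ D.C₁) ↔ (∃ n : ℕ, D.j⁻¹ ^ n * x ∈ D.C₂)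
  unif₁ : IsUnif D.ϖ D.V₁
  unif₂ : IsUnif D.ϖ D.V₂
  le₁₁ : ∀ c ∈ D.C₁, c ∈ D.V₁
  le₁₂ : ∀ c ∈ D.C₁, c ∈ D.V₂
  le₂₁ : ∀ c ∈ D.C₂, c ∈ D.V₁
  le₂₂ : ∀ c ∈ D.C₂, c ∈ D.V₂
  j_inv₁ : D.j⁻¹ ∈ D.V₁
  j_inv₂ : D.j⁻¹ ∈ D.V₂
  sat₁ : ∀ y : D.F₀, y ∈ D.V₁ → y ∈ D.V₂ → D.ϖ • y ∈ D.C₁ → y ∈ D.C₁
  sat₂ : ∀ y : D.F₀, y ∈ D.V₁ → y ∈ D.V₂ → D.ϖ • y ∈ D.C₂ → y ∈ D.C₂
  const₁ : ∀ c₁ ∈ D.C₁, ∀ c₂ ∈ D.C₂, c₁ - c₂ ∈ D.V₁.nonunits →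
    ∃ a : D.A₀, c₁ - algebraMap D.A₀ D.F₀ a ∈ D.V₁.nonunits
  const₂ : ∀ c₁ ∈ D.C₁, ∀ c₂ ∈ D.C₂, c₁ - c₂ ∈ D.V₂.nonunits →
    ∃ a : D.A₀, c₁ - algebraMap D.A₀ D.F₀ a ∈ D.V₂.nonunits
  inter : ∀ c ∈ D.C₁, c ∈ D.C₂ → ∃ a : D.A₀, c = algebraMap D.A₀ D.F₀ a
  τ_mem₁ : ∀ c : D.F₀, D.τ₀ c ∈ D.C₁ ↔ c ∈ D.C₁
  τ_mem₂ : ∀ c : D.F₀, D.τ₀ c ∈ D.C₂ ↔ c ∈ D.C₂
  τ_V₁ : ∀ y ∈ D.V₁, D.τ₀ y ∈ D.V₁
  τ_V₂ : ∀ y ∈ D.V₂, D.τ₀ y ∈ D.V₂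
  τ_sub₁ : ∀ y ∈ D.V₁, D.τ₀ y - y ∈ D.V₁.nonunits
  τ_sub₂ : ∀ y ∈ D.V₂, D.τ₀ y - y ∈ D.V₂.nonunits
  τ_unif : ∃ e : D.A₀ˣ, D.τ₀ (algebraMap D.A₀ D.F₀ D.ϖ) = algebraMap D.A₀ D.F₀ (e * D.ϖ)
  τ_val₁ : ∀ y : D.F₀, y ≠ 0 → D.τ₀ y / y ∈ D.V₁ ∧ y / D.τ₀ y ∈ D.V₁
  τ_val₂ : ∀ y : D.F₀, y ≠ 0 → D.τ₀ y / y ∈ D.V₂ ∧ y / D.τ₀ y ∈ D.V₂
  /-- `ι` intertwines `τ₀` with the Galois action -/
  ι_τ : ∀ y : D.F₀, D.ι (D.τ₀ y) = τ (D.ι y)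
  /-- the base ring maps to the constants -/
  ι_base : ∀ a : D.A₀, ∃ c : Qb, D.ι (algebraMap D.A₀ D.F₀ a) = algebraMap Qb (FF M) c

/-- The divisor of `u₀` is divisible by `m` at every horizontal discrete valuation ring. -/
def VData.Div {M : ℕ} (D : VData M) (m : ℕ) (u₀ : D.F₀) : Prop :=
  ∀ V : ValuationSubring D.F₀, (algebraMap D.A₀ D.F₀ D.ϖ)⁻¹ ∈ V →
    (∀ a : D.A₀, algebraMap D.A₀ D.F₀ a ∈ V) → IsDiscreteValuationRing V →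
    ∃ t : D.F₀, t ≠ 0 ∧ u₀ / t ^ m ∈ V ∧ (u₀ / t ^ m)⁻¹ ∈ V

/-- Saturated generators of the horizontal primes through `x` in the support of `u`
(the hypothesis `hgen` of `H7.step1_chart`). -/
def HGen {A₀ F₀ : Type} [CommRing A₀] [Field F₀] [Algebra A₀ F₀] (C : Subalgebra A₀ F₀)
    (x : Ideal ↥C) (π : ↥C) (u : F₀) : Prop :=
  ∀ P : Ideal ↥C, P.IsPrime → P.height = 1 → P ≤ x → π ∉ P →
    (∀ V : ValuationSubring F₀, IsLocAt P V → ¬ IsU V u) →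
    ∃ f ∈ P, ∀ y ∈ P, ∃ s : ↥C, s ∉ x ∧ ∃ (n : ℕ) (c : ↥C), s * π ^ n * y = f * c

/-- The local ring of the chart `C` at the prime `x` is factorial. -/
def PointUFD {A₀ F₀ : Type} [CommRing A₀] [Field F₀] [Algebra A₀ F₀] (C : Subalgebra A₀ F₀)
    (x : Ideal ↥C) (hx : x.IsPrime) : Prop :=
  haveI := hx
  UniqueFactorizationMonoid (Localization.AtPrime x)

/-- The local certificate at a closed point `x` of the chart `C`. -/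
def PointOK {A₀ F₀ : Type} [CommRing A₀] [Field F₀] [Algebra A₀ F₀] (C : Subalgebra A₀ F₀)
    (x : Ideal ↥C) (hx : x.IsPrime) (π : ↥C) (u : F₀) : Prop :=
  PointUFD C x hx ∨ HGen C x π u

/-- **The model leaf** (two-valuation form with local certificates). -/
def LocalModelStatement : Prop :=
  ∀ M q p r : ℕ, LevelHyp2 M q p r →
    ∀ (n : ℕ) (A : ValuationSubring Qb), A.LiesOverPrime q → ∀ τ ∈ A.inertiaSubgroupIn ℚ,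
      ∀ u : FF M, u ≠ 0 → (∀ v : Place Qb (FF M), ((p ^ n : ℕ) : ℤ) ∣ v.ord u) →
        ∃ D : VData M, D.Good (p ^ n) (gal M τ) ∧ ∃ u₀ : D.F₀, D.ι u₀ = u ∧ D.Div (p ^ n) u₀ ∧
          (∀ (x : Ideal ↥D.C₁) (hx : x.IsMaximal), algebraMap D.A₀ ↥D.C₁ D.ϖ ∈ x →
            PointOK D.C₁ x hx.isPrime (algebraMap D.A₀ ↥D.C₁ D.ϖ) u₀) ∧
          (∀ (x : Ideal ↥D.C₂) (hx : x.IsMaximal), algebraMap D.A₀ ↥D.C₂ D.ϖ ∈ x →
            PointOK D.C₂ x hx.isPrime (algebraMap D.A₀ ↥D.C₂ D.ϖ) u₀)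

section Local

variable {A₀ F₀ : Type} [CommRing A₀] [Field F₀] [Algebra A₀ F₀] [FaithfulSMul A₀ F₀]

/-- Step 1 at a closed point of a chart, from the local certificate. -/
theorem cartier_of_pointOK (ϖ : A₀) (hϖ0 : ϖ ≠ 0) (C : Subalgebra A₀ F₀)
    [IsIntegrallyClosed ↥C] [IsNoetherianRing ↥C]
    (hfrac : ∀ y : F₀, ∃ a ∈ C, ∃ b ∈ C, b ≠ 0 ∧ y = a / b)
    (V₁ V₂ : ValuationSubring F₀) (hu₁ : IsUnif ϖ V₁) (hu₂ : IsUnif ϖ V₂)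
    (hCV₁ : ∀ c ∈ C, c ∈ V₁) (hCV₂ : ∀ c ∈ C, c ∈ V₂)
    (hsat : ∀ y : F₀, y ∈ V₁ → y ∈ V₂ → ϖ • y ∈ C → y ∈ C)
    (τ : F₀ ≃+* F₀) (hτC : ∀ c : F₀, τ c ∈ C ↔ c ∈ C)
    (hτ1₁ : ∀ y ∈ V₁, τ y - y ∈ V₁.nonunits) (hτ1₂ : ∀ y ∈ V₂, τ y - y ∈ V₂.nonunits)
    (hτϖ : ∃ e : A₀ˣ, τ (algebraMap A₀ F₀ ϖ) = algebraMap A₀ F₀ (e * ϖ))
    (m : ℕ) (u : F₀) (hu : u ≠ 0)
    (hdiv : ∀ V : ValuationSubring F₀, (algebraMap A₀ F₀ ϖ)⁻¹ ∈ V →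
      (∀ a : A₀, algebraMap A₀ F₀ a ∈ V) → IsDiscreteValuationRing V →
      ∃ t : F₀, t ≠ 0 ∧ u / t ^ m ∈ V ∧ (u / t ^ m)⁻¹ ∈ V)
    (x : Ideal ↥C) (hx : x.IsMaximal) (hϖx : algebraMap A₀ ↥C ϖ ∈ x)
    (hok : PointOK C x hx.isPrime (algebraMap A₀ ↥C ϖ) u) :
    ∃ g : F₀, g ≠ 0 ∧ ∃ a b : ↥C, a ∉ x ∧ b ∉ x ∧ τ u / u * (b : F₀) = (a : F₀) * g ^ m := by
  haveI : IsFractionRing ↥C F₀ := Fermat.Agent.S34.H54.isFractionRing_of_forall_div C hfrac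
  haveI : x.IsPrime := hx.isPrime
  have hinj : Function.Injective (algebraMap A₀ F₀) := FaithfulSMul.algebraMap_injective A₀ F₀
  have hπ0 : algebraMap A₀ ↥C ϖ ≠ 0 := by
    intro h0
    apply hϖ0
    apply hinj
    have h1 : ((algebraMap A₀ ↥C ϖ : ↥C) : F₀) = 0 := by rw [h0]; rfl
    rw [map_zero]
    exact h1
  have hcoe : ((algebraMap A₀ ↥C ϖ : ↥C) : F₀) = algebraMap A₀ F₀ ϖ := rfl
  have hτC₁ : ∀ c ∈ C, τ c ∈ C := fun c hc => (hτC c).2 hc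
  have hτC₂ : ∀ c ∈ C, τ.symm c ∈ C := fun c hc => by
    have h := (hτC (τ.symm c)).1
    rw [τ.apply_symm_apply] at h
    exact h hc
  have hτ1 : ∀ c ∈ C, ∃ d ∈ C, τ c = c + ((algebraMap A₀ ↥C ϖ : ↥C) : F₀) * d := by
    intro c hc
    obtain ⟨d₁, hd₁, h1⟩ := (hu₁ _).1 (hτ1₁ c (hCV₁ c hc))
    obtain ⟨d₂, hd₂, h2⟩ := (hu₂ _).1 (hτ1₂ c (hCV₂ c hc))
    have hϖF : algebraMap A₀ F₀ ϖ ≠ 0 := fun h => hϖ0 (hinj (by rw [h, map_zero]))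
    have hdd : d₁ = d₂ := by
      have h3 : ϖ • d₁ = ϖ • d₂ := by rw [← h1, ← h2]
      rw [Algebra.smul_def, Algebra.smul_def] at h3
      exact mul_left_cancel₀ hϖF h3
    subst hdd
    refine ⟨d₁, hsat d₁ hd₁ hd₂ ?_, ?_⟩
    · rw [← h1]
      exact C.sub_mem (hτC₁ c hc) hc
    · rw [hcoe, ← Algebra.smul_def, ← h1]
      ring
  have hτπ : ∃ ε ∈ C, ((algebraMap A₀ ↥C ϖ : ↥C) : F₀) =
      τ ((algebraMap A₀ ↥C ϖ : ↥C) : F₀) * ε := by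
    obtain ⟨e, he⟩ := hτϖ
    refine ⟨algebraMap A₀ F₀ ((e⁻¹ : A₀ˣ) : A₀), C.algebraMap_mem _, ?_⟩
    rw [hcoe, he, ← map_mul]
    congr 1
    rw [mul_comm (e : A₀) ϖ, mul_assoc, Units.mul_inv, mul_one]
  have hdiv' := hdiv_of_forall_dvr C x (algebraMap A₀ ↥C ϖ) m u
    (fun V hV hC hdvr => hdiv V (by rw [← hcoe]; exact hV)
      (fun a => hC (algebraMap A₀ ↥C a)) hdvr)
  rcases hok with hufd | hgen
  · exact step1_chart_of_ufd C x (algebraMap A₀ ↥C ϖ) hπ0 hϖx τ hτC₁ hτC₂ hτ1 hτπ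
      (Localization.AtPrime x) hufd m u hu hdiv'
  · exact step1_chart C x hx.isPrime (algebraMap A₀ ↥C ϖ) hπ0 hϖx τ hτC₁ hτC₂ hτ1 hτπ m u hu
      hdiv' hgen

end Local

/-- The function-level target from the model leaf. -/
theorem kummerAt_of_localModel (hmodel : LocalModelStatement)
    (M q p r : ℕ) (hL : LevelHyp2 M q p r) : KummerAt M q p := by
  intro n A hA τ hτ u hu hdiv
  obtain ⟨D, hD, u₀, hu₀, hDiv, h₁, h₂⟩ := hmodel M q p r hL n A hA τ hτ u hu hdiv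
  haveI := hD.icl₁
  haveI := hD.icl₂
  haveI := hD.noeth₁
  haveI := hD.noeth₂
  have hu₀0 : u₀ ≠ 0 := by
    rintro rfl
    exact hu (by rw [← hu₀, map_zero])
  have hτu₀0 : D.τ₀ u₀ ≠ 0 := (map_ne_zero D.τ₀).2 hu₀0
  set v₀ : D.F₀ := D.τ₀ u₀ / u₀ with hv₀
  have hv₀0 : v₀ ≠ 0 := div_ne_zero hτu₀0 hu₀0
  have hval₁ := hD.τ_val₁ u₀ hu₀0
  have hval₂ := hD.τ_val₂ u₀ hu₀0
  have hϖ0 : D.ϖ ≠ 0 := hD.irr.ne_zero
  -- Step 1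
  have hc₁ : ∀ x : Ideal ↥D.C₁, x.IsMaximal → algebraMap D.A₀ ↥D.C₁ D.ϖ ∈ x →
      ∃ g : D.F₀, g ≠ 0 ∧ ∃ a b : ↥D.C₁, a ∉ x ∧ b ∉ x ∧
        v₀ * (b : D.F₀) = (a : D.F₀) * g ^ (p ^ n) :=
    fun x hx hϖx => cartier_of_pointOK D.ϖ hϖ0 D.C₁ hD.frac₁ D.V₁ D.V₂ hD.unif₁ hD.unif₂
      hD.le₁₁ hD.le₁₂ hD.sat₁ D.τ₀ hD.τ_mem₁ hD.τ_sub₁ hD.τ_sub₂ hD.τ_unif (p ^ n) u₀ hu₀0
      hDiv x hx hϖx (h₁ x hx hϖx)
  have hc₂ : ∀ x : Ideal ↥D.C₂, x.IsMaximal → algebraMap D.A₀ ↥D.C₂ D.ϖ ∈ x →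
      ∃ g : D.F₀, g ≠ 0 ∧ ∃ a b : ↥D.C₂, a ∉ x ∧ b ∉ x ∧
        v₀ * (b : D.F₀) = (a : D.F₀) * g ^ (p ^ n) :=
    fun x hx hϖx => cartier_of_pointOK D.ϖ hϖ0 D.C₂ hD.frac₂ D.V₁ D.V₂ hD.unif₁ hD.unif₂
      hD.le₂₁ hD.le₂₂ hD.sat₂ D.τ₀ hD.τ_mem₂ hD.τ_sub₁ hD.τ_sub₂ hD.τ_unif (p ^ n) u₀ hu₀0
      hDiv x hx hϖx (h₂ x hx hϖx)
  -- Step 2
  have hone : v₀ / (1 : D.F₀) ^ (p ^ n) = v₀ := by rw [one_pow, div_one]
  have hinv : v₀⁻¹ = u₀ / D.τ₀ u₀ := by rw [hv₀, inv_div]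
  obtain ⟨h, hh0, hh₁, hh₂⟩ := Fermat.Agent.S34.H77.exists_pow_mul_mem_of_cartier_two_inter
    D.ϖ hD.irr (p ^ n) hD.unit_m D.j hD.j_ne D.C₁ D.C₂ hD.j_mem₁ hD.j_mem₂ hD.fin₁ hD.frac₁
    hD.glue D.V₁ D.V₂ hD.unif₁ hD.unif₂ hD.le₁₁ hD.le₁₂ hD.le₂₁ hD.le₂₂ hD.j_inv₁ hD.j_inv₂
    hD.sat₁ hD.sat₂ hD.const₁ hD.const₂ hD.inter D.τ₀
    (fun c hc => (hD.τ_mem₁ c).2 hc) (fun c hc => (hD.τ_mem₂ c).2 hc) hD.τ_V₁ hD.τ_V₂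
    hD.τ_sub₁ hD.τ_sub₂ v₀ 1 hv₀0 one_ne_zero
    (by rw [hone]; exact hval₁.1) (by rw [hone, hinv]; exact hval₁.2)
    (by rw [hone]; exact hval₂.1) (by rw [hone, hinv]; exact hval₂.2) hc₁ hc₂
  obtain ⟨a, ha⟩ := hD.inter _ hh₁ hh₂
  obtain ⟨c, hc⟩ := hD.ι_base a
  rw [← ha] at hc
  have hιh : D.ι h ≠ 0 := (map_ne_zero D.ι).2 hh0
  have hιv : D.ι v₀ = gal M τ u / u := by
    rw [hv₀, map_div₀, hD.ι_τ, hu₀]
  have hτv₀0 : D.τ₀ v₀ ≠ 0 := (map_ne_zero D.τ₀).2 hv₀0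
  have hιτv : D.ι (D.τ₀ v₀ / v₀) = gal M τ (gal M τ u / u) / (gal M τ u / u) := by
    rw [map_div₀ D.ι, hD.ι_τ, hιv]
  have hkey : gal M τ (gal M τ u / u) / (gal M τ u / u) * D.ι h ^ (p ^ n) =
      algebraMap Qb (FF M) c := by
    rw [← hc, map_mul D.ι, map_pow D.ι, hιτv]
  have hlhs0 : gal M τ (gal M τ u / u) / (gal M τ u / u) ≠ 0 := by
    rw [← hιτv]
    exact (map_ne_zero D.ι).2 (div_ne_zero hτv₀0 hv₀0)
  refine ⟨c, (D.ι h)⁻¹, ?_, inv_ne_zero hιh, ?_⟩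
  · rintro rfl
    rw [map_zero] at hkey
    exact mul_ne_zero hlhs0 (pow_ne_zero _ hιh) hkey
  · rw [← hkey, inv_pow, mul_assoc, mul_inv_cancel₀ (pow_ne_zero _ hιh), mul_one]

/-- **The root of Program B' from the model leaf alone.** -/
theorem geoTarget2_of_localModel (hmodel : LocalModelStatement) : GeoTarget2 := by
  intro M q p r hM hq hp hqp hqM hq2 hr hr12 hrM hr2 hrq hrp hbig h2 h3
  exact dictStatement M q p hM hq hp (kummerAt_of_localModel hmodel M q p r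
    ⟨⟨hM, hq, hp, hqp, hqM, hq2, hr, hr12, hrM, hr2, hrq, hrp, hbig⟩, h2, h3⟩)

/-- The binding interface of the S34 top from the model leaf alone. -/
theorem b1Statement_of_localModel (hmodel : LocalModelStatement) (N q p : ℕ) [NeZero N]
    (hq : q.Prime) (hp : p.Prime) (hqp : q ≠ p) (hqN : q ∣ N) (hq2 : ¬ q ^ 2 ∣ N) :
    B1Statement N q p :=
  b1Statement_of_geoTarget2 (geoTarget2_of_localModel hmodel) N q p hq hp hqp hqN hq2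

end Fermat.Agent.S34.H30
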