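/-
Program B' (S34), helper30: abstract glue for the final assembly.

* `kummer_of_cartierV` : Step 2 for a two-valuation model (`VData.Good`) and a function `u₀` such
  that `τ₀ u₀ / u₀` satisfies the Cartier condition at the closed points of both charts.
* `cartier_of_hLoc_V` : Step 1 at a closed point from the local divisor datum `HLoc`
  (through `H59.localAbsStatement`), in the two-valuation form.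
* `cartier_of_point3` : Step 1 at a closed point from any of the three local certificates
  (`PointUFD`, `HGen`, `HLoc`).
* `cartier_transfer` : the Cartier condition at the closed points of the chart at infinity not on
  the divisor `j = ∞` follows from the Cartier condition on the finite chart.
-/
import Fermat.Agent.S34.H30.Model
import Fermat.Agent.S34.H59.LocalAbs

set_option autoImplicit false
set_option linter.style.haveILetI false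

open AlgebraicCurve ModularCurve

noncomputable section

namespace Fermat.Agent.S34.H30

open Fermat.Agent.S34.H27 Fermat.Agent.S34.H10 Fermat.Agent.S34.H7
  Fermat.Agent.S18.H47 Fermat.Agent.S18.H86

/-- **Step 2 for a two-valuation model**: if `τ₀ u₀ / u₀` satisfies the Cartier condition at the
closed points of the special fibre of both charts, then `τ(v) / v`, `v = τ(u) / u`, `u = ι u₀`,
is a constant times an `m`-th power. -/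
theorem kummer_of_cartierV {M : ℕ} (D : VData M) (m : ℕ) (τ : FF M ≃+* FF M)
    (hD : D.Good m τ) (u₀ : D.F₀) (hu₀0 : u₀ ≠ 0)
    (hc₁ : ∀ x : Ideal ↥D.C₁, x.IsMaximal → algebraMap D.A₀ ↥D.C₁ D.ϖ ∈ x →
      ∃ g : D.F₀, g ≠ 0 ∧ ∃ a b : ↥D.C₁, a ∉ x ∧ b ∉ x ∧
        D.τ₀ u₀ / u₀ * (b : D.F₀) = (a : D.F₀) * g ^ m)
    (hc₂ : ∀ x : Ideal ↥D.C₂, x.IsMaximal → algebraMap D.A₀ ↥D.C₂ D.ϖ ∈ x →
      ∃ g : D.F₀, g ≠ 0 ∧ ∃ a b : ↥D.C₂, a ∉ x ∧ b ∉ x ∧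
        D.τ₀ u₀ / u₀ * (b : D.F₀) = (a : D.F₀) * g ^ m) :
    ∃ (c : Qb) (w : FF M), c ≠ 0 ∧ w ≠ 0 ∧
      τ (τ (D.ι u₀) / D.ι u₀) / (τ (D.ι u₀) / D.ι u₀) = algebraMap Qb (FF M) c * w ^ m := by
  haveI := hD.icl₁
  haveI := hD.icl₂
  have hτu₀0 : D.τ₀ u₀ ≠ 0 := (map_ne_zero D.τ₀).2 hu₀0
  set v₀ : D.F₀ := D.τ₀ u₀ / u₀ with hv₀
  have hv₀0 : v₀ ≠ 0 := div_ne_zero hτu₀0 hu₀0
  have hval₁ := hD.τ_val₁ u₀ hu₀0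
  have hval₂ := hD.τ_val₂ u₀ hu₀0
  have hone : v₀ / (1 : D.F₀) ^ m = v₀ := by rw [one_pow, div_one]
  have hinv : v₀⁻¹ = u₀ / D.τ₀ u₀ := by rw [hv₀, inv_div]
  obtain ⟨h, hh0, hh₁, hh₂⟩ := Fermat.Agent.S34.H77.exists_pow_mul_mem_of_cartier_two_inter
    D.ϖ hD.irr m hD.unit_m D.j hD.j_ne D.C₁ D.C₂ hD.j_mem₁ hD.j_mem₂ hD.fin₁ hD.frac₁
    hD.glue D.V₁ D.V₂ hD.unif₁ hD.unif₂ hD.le₁₁ hD.le₁₂ hD.le₂₁ hD.le₂₂ hD.j_inv₁ hD.j_inv₂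
    hD.sat₁ hD.sat₂ hD.const₁ hD.const₂ hD.inter D.τ₀
    (fun c hc => (hD.τ_mem₁ c).2 hc) (fun c hc => (hD.τ_mem₂ c).2 hc) hD.τ_V₁ hD.τ_V₂
    hD.τ_sub₁ hD.τ_sub₂ v₀ 1 hv₀0 one_ne_zero
    (by rw [hone]; exact hval₁.1) (by rw [hone, hinv]; exact hval₁.2)
    (by rw [hone]; exact hval₂.1) (by rw [hone, hinv]; exact hval₂.2) hc₁ hc₂
  obtain ⟨a, ha⟩ := hD.inter _ hh₁ hh₂
  obtain ⟨c, hc⟩ := hD.ι_base a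
  rw [← ha] at hc
  have hιh : D.ι h ≠ 0 := (map_ne_zero D.ι).2 hh0
  have hιv : D.ι v₀ = τ (D.ι u₀) / D.ι u₀ := by
    rw [hv₀, map_div₀, hD.ι_τ]
  have hτv₀0 : D.τ₀ v₀ ≠ 0 := (map_ne_zero D.τ₀).2 hv₀0
  have hιτv : D.ι (D.τ₀ v₀ / v₀) = τ (τ (D.ι u₀) / D.ι u₀) / (τ (D.ι u₀) / D.ι u₀) := by
    rw [map_div₀ D.ι, hD.ι_τ, hιv]
  have hkey : τ (τ (D.ι u₀) / D.ι u₀) / (τ (D.ι u₀) / D.ι u₀) * D.ι h ^ m =
      algebraMap Qb (FF M) c := by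
    rw [← hc, map_mul D.ι, map_pow D.ι, hιτv]
  have hlhs0 : τ (τ (D.ι u₀) / D.ι u₀) / (τ (D.ι u₀) / D.ι u₀) ≠ 0 := by
    rw [← hιτv]
    exact (map_ne_zero D.ι).2 (div_ne_zero hτv₀0 hv₀0)
  refine ⟨c, (D.ι h)⁻¹, ?_, inv_ne_zero hιh, ?_⟩
  · rintro rfl
    rw [map_zero] at hkey
    exact mul_ne_zero hlhs0 (pow_ne_zero _ hιh) hkey
  · rw [← hkey, inv_pow, mul_assoc, mul_inv_cancel₀ (pow_ne_zero _ hιh), mul_one]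

section Local

variable {A₀ F₀ : Type} [CommRing A₀] [IsDomain A₀] [IsDiscreteValuationRing A₀] [Field F₀]
  [Algebra A₀ F₀] [FaithfulSMul A₀ F₀]

/-- Step 1 at a closed point from the local divisor datum `HLoc`, two-valuation form. -/
theorem cartier_of_hLoc_V (ϖ : A₀) (hϖ : Irreducible ϖ) (C : Subalgebra A₀ F₀)
    [IsIntegrallyClosed ↥C] [IsNoetherianRing ↥C]
    (hfrac : ∀ y : F₀, ∃ a ∈ C, ∃ b ∈ C, b ≠ 0 ∧ y = a / b)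
    (V₁ V₂ : ValuationSubring F₀) (hu₁ : IsUnif ϖ V₁) (hu₂ : IsUnif ϖ V₂)
    (hCV₁ : ∀ c ∈ C, c ∈ V₁) (hCV₂ : ∀ c ∈ C, c ∈ V₂)
    (hsat : ∀ y : F₀, y ∈ V₁ → y ∈ V₂ → ϖ • y ∈ C → y ∈ C)
    (τ : F₀ ≃+* F₀) (hτC : ∀ c : F₀, τ c ∈ C ↔ c ∈ C)
    (hτV₁ : ∀ y ∈ V₁, τ y ∈ V₁) (hτV₂ : ∀ y ∈ V₂, τ y ∈ V₂)
    (hτ1₁ : ∀ y ∈ V₁, τ y - y ∈ V₁.nonunits) (hτ1₂ : ∀ y ∈ V₂, τ y - y ∈ V₂.nonunits)
    (hτϖ : ∃ e : A₀ˣ, τ (algebraMap A₀ F₀ ϖ) = algebraMap A₀ F₀ (e * ϖ))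
    (hval₁ : ∀ y : F₀, y ≠ 0 → τ y / y ∈ V₁ ∧ y / τ y ∈ V₁)
    (hval₂ : ∀ y : F₀, y ≠ 0 → τ y / y ∈ V₂ ∧ y / τ y ∈ V₂)
    (m : ℕ) (u : F₀) (hu : u ≠ 0)
    (x : Ideal ↥C) (hx : x.IsMaximal) (hϖx : algebraMap A₀ ↥C ϖ ∈ x)
    (hloc : HLoc ϖ m C x u) :
    ∃ g : F₀, g ≠ 0 ∧ ∃ a b : ↥C, a ∉ x ∧ b ∉ x ∧ τ u / u * (b : F₀) = (a : F₀) * g ^ m := by
  have hϖ0 : algebraMap A₀ F₀ ϖ ≠ 0 := fun h0 =>
    hϖ.ne_zero (FaithfulSMul.algebraMap_injective A₀ F₀ (by rw [h0, map_zero]))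
  have hA₁ : ∀ a : A₀, algebraMap A₀ F₀ a ∈ V₁ := fun a => hCV₁ _ (C.algebraMap_mem a)
  have hA₂ : ∀ a : A₀, algebraMap A₀ F₀ a ∈ V₂ := fun a => hCV₂ _ (C.algebraMap_mem a)
  exact Fermat.Agent.S34.H59.localAbsStatement A₀ F₀ ϖ hϖ m C (interAlg V₁ V₂ hA₁ hA₂) hfrac
    (fun c hc => ⟨hCV₁ c hc, hCV₂ c hc⟩) (fun y hy h => hsat y hy.1 hy.2 h) τ hτC
    (fun y hy => ⟨hτV₁ y hy.1, hτV₂ y hy.2⟩)
    (fun y hy => (dv_interAlg_iff hu₁ hu₂ hϖ0).2 ⟨hτ1₁ y hy.1, hτ1₂ y hy.2⟩) hτϖ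
    (fun y hy => ⟨⟨(hval₁ y hy).1, (hval₂ y hy).1⟩, ⟨(hval₁ y hy).2, (hval₂ y hy).2⟩⟩)
    x hx hϖx u hu hloc

end Local

/-- The three local certificates at a closed point `x` of a chart `C`: the local ring is
factorial, or the horizontal primes through `x` in the support of `u` have saturated generators,
or `u` has the local divisor datum `HLoc`. -/
def Point3 {A₀ F₀ : Type} [CommRing A₀] [Field F₀] [Algebra A₀ F₀] (ϖ : A₀) (m : ℕ)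
    (C : Subalgebra A₀ F₀) (x : Ideal ↥C) (hx : x.IsPrime) (u : F₀) : Prop :=
  PointUFD C x hx ∨ HGen C x (algebraMap A₀ ↥C ϖ) u ∨ HLoc ϖ m C x u

/-- Step 1 at a closed point of the first chart of a two-valuation model, from any of the three
local certificates. -/
theorem cartier_of_point3₁ {M : ℕ} (D : VData M) (m : ℕ) (τ : FF M ≃+* FF M)
    (hD : D.Good m τ) (u₀ : D.F₀) (hu₀0 : u₀ ≠ 0) (hDiv : D.Div m u₀)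
    (x : Ideal ↥D.C₁) (hx : x.IsMaximal) (hϖx : algebraMap D.A₀ ↥D.C₁ D.ϖ ∈ x)
    (h : Point3 D.ϖ m D.C₁ x hx.isPrime u₀) :
    ∃ g : D.F₀, g ≠ 0 ∧ ∃ a b : ↥D.C₁, a ∉ x ∧ b ∉ x ∧
      D.τ₀ u₀ / u₀ * (b : D.F₀) = (a : D.F₀) * g ^ m := by
  haveI := hD.icl₁
  haveI := hD.noeth₁
  rcases h with h | h | h
  · exact cartier_of_pointOK D.ϖ hD.irr.ne_zero D.C₁ hD.frac₁ D.V₁ D.V₂ hD.unif₁ hD.unif₂
      hD.le₁₁ hD.le₁₂ hD.sat₁ D.τ₀ hD.τ_mem₁ hD.τ_sub₁ hD.τ_sub₂ hD.τ_unif m u₀ hu₀0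
      hDiv x hx hϖx (Or.inl h)
  · exact cartier_of_pointOK D.ϖ hD.irr.ne_zero D.C₁ hD.frac₁ D.V₁ D.V₂ hD.unif₁ hD.unif₂
      hD.le₁₁ hD.le₁₂ hD.sat₁ D.τ₀ hD.τ_mem₁ hD.τ_sub₁ hD.τ_sub₂ hD.τ_unif m u₀ hu₀0
      hDiv x hx hϖx (Or.inr h)
  · exact cartier_of_hLoc_V D.ϖ hD.irr D.C₁ hD.frac₁ D.V₁ D.V₂ hD.unif₁ hD.unif₂
      hD.le₁₁ hD.le₁₂ hD.sat₁ D.τ₀ hD.τ_mem₁ hD.τ_V₁ hD.τ_V₂ hD.τ_sub₁ hD.τ_sub₂ hD.τ_unif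
      hD.τ_val₁ hD.τ_val₂ m u₀ hu₀0 x hx hϖx h

/-- Step 1 at a closed point of the second chart of a two-valuation model. -/
theorem cartier_of_point3₂ {M : ℕ} (D : VData M) (m : ℕ) (τ : FF M ≃+* FF M)
    (hD : D.Good m τ) (u₀ : D.F₀) (hu₀0 : u₀ ≠ 0) (hDiv : D.Div m u₀)
    (x : Ideal ↥D.C₂) (hx : x.IsMaximal) (hϖx : algebraMap D.A₀ ↥D.C₂ D.ϖ ∈ x)
    (h : Point3 D.ϖ m D.C₂ x hx.isPrime u₀) :
    ∃ g : D.F₀, g ≠ 0 ∧ ∃ a b : ↥D.C₂, a ∉ x ∧ b ∉ x ∧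
      D.τ₀ u₀ / u₀ * (b : D.F₀) = (a : D.F₀) * g ^ m := by
  haveI := hD.icl₂
  haveI := hD.noeth₂
  rcases h with h | h | h
  · exact cartier_of_pointOK D.ϖ hD.irr.ne_zero D.C₂ hD.frac₂ D.V₁ D.V₂ hD.unif₁ hD.unif₂
      hD.le₂₁ hD.le₂₂ hD.sat₂ D.τ₀ hD.τ_mem₂ hD.τ_sub₁ hD.τ_sub₂ hD.τ_unif m u₀ hu₀0
      hDiv x hx hϖx (Or.inl h)
  · exact cartier_of_pointOK D.ϖ hD.irr.ne_zero D.C₂ hD.frac₂ D.V₁ D.V₂ hD.unif₁ hD.unif₂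
      hD.le₂₁ hD.le₂₂ hD.sat₂ D.τ₀ hD.τ_mem₂ hD.τ_sub₁ hD.τ_sub₂ hD.τ_unif m u₀ hu₀0
      hDiv x hx hϖx (Or.inr h)
  · exact cartier_of_hLoc_V D.ϖ hD.irr D.C₂ hD.frac₂ D.V₁ D.V₂ hD.unif₁ hD.unif₂
      hD.le₂₁ hD.le₂₂ hD.sat₂ D.τ₀ hD.τ_mem₂ hD.τ_V₁ hD.τ_V₂ hD.τ_sub₁ hD.τ_sub₂ hD.τ_unif
      hD.τ_val₁ hD.τ_val₂ m u₀ hu₀0 x hx hϖx h

section Transfer

variable {A₀ F₀ : Type} [CommRing A₀] [Field F₀] [Algebra A₀ F₀]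

/-- **Transfer between the charts**: the Cartier condition at a closed point `x` of the chart at
infinity `C₂` with `j⁻¹ ∉ x` follows from the Cartier condition at the closed points of the
finite chart `C₁`. -/
theorem cartier_transfer (ϖ : A₀) (j : F₀) (C₁ C₂ : Subalgebra A₀ F₀) (hj₂ : j⁻¹ ∈ C₂)
    (hglue : ∀ y : F₀, (∃ n : ℕ, j ^ n * y ∈ C₁) ↔ (∃ n : ℕ, j⁻¹ ^ n * y ∈ C₂))
    (m : ℕ) (v : F₀)
    (hc₁ : ∀ x : Ideal ↥C₁, x.IsMaximal → algebraMap A₀ ↥C₁ ϖ ∈ x →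
      ∃ g : F₀, g ≠ 0 ∧ ∃ a b : ↥C₁, a ∉ x ∧ b ∉ x ∧ v * (b : F₀) = (a : F₀) * g ^ m)
    (x : Ideal ↥C₂) (hx : x.IsPrime) (hϖx : algebraMap A₀ ↥C₂ ϖ ∈ x)
    (hjx : (⟨j⁻¹, hj₂⟩ : ↥C₂) ∉ x) :
    ∃ g : F₀, g ≠ 0 ∧ ∃ a b : ↥C₂, a ∉ x ∧ b ∉ x ∧ v * (b : F₀) = (a : F₀) * g ^ m := by
  -- every element of `C₁` becomes an element of `C₂` after multiplication by a power of `j⁻¹`
  have hpow : ∀ c ∈ C₁, ∃ n : ℕ, j⁻¹ ^ n * c ∈ C₂ := fun c hc =>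
    (hglue c).1 ⟨0, by rw [pow_zero, one_mul]; exact hc⟩
  have hjpow : ∀ n : ℕ, j⁻¹ ^ n ∈ C₂ := fun n => C₂.pow_mem hj₂ n
  -- the ideal of `C₁` of the elements mapped into `x`
  let I : Ideal ↥C₁ :=
    { carrier := {c | ∃ (n : ℕ) (h : j⁻¹ ^ n * (c : F₀) ∈ C₂), (⟨_, h⟩ : ↥C₂) ∈ x}
      add_mem' := by
        rintro c d ⟨n, hn, hnx⟩ ⟨k, hk, hkx⟩
        have h1 : j⁻¹ ^ (n + k) * ((c + d : ↥C₁) : F₀) =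
            j⁻¹ ^ k * (j⁻¹ ^ n * (c : F₀)) + j⁻¹ ^ n * (j⁻¹ ^ k * (d : F₀)) := by
          push_cast
          rw [pow_add]
          ring
        have h2 : j⁻¹ ^ (n + k) * ((c + d : ↥C₁) : F₀) ∈ C₂ := by
          rw [h1]
          exact C₂.add_mem (C₂.mul_mem (hjpow k) hn) (C₂.mul_mem (hjpow n) hk)
        refine ⟨n + k, h2, ?_⟩
        have h3 : (⟨_, h2⟩ : ↥C₂) = ⟨_, hjpow k⟩ * ⟨_, hn⟩ + ⟨_, hjpow n⟩ * ⟨_, hk⟩ :=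
          Subtype.ext h1
        rw [h3]
        exact x.add_mem (x.mul_mem_left _ hnx) (x.mul_mem_left _ hkx)
      zero_mem' := by
        refine ⟨0, ?_, ?_⟩
        · simp
        · have : (⟨j⁻¹ ^ 0 * ((0 : ↥C₁) : F₀), by simp⟩ : ↥C₂) = 0 := Subtype.ext (by simp)
          rw [this]
          exact x.zero_mem
      smul_mem' := by
        rintro r c ⟨n, hn, hnx⟩
        obtain ⟨k, hk⟩ := hpow r r.2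
        have h1 : j⁻¹ ^ (k + n) * ((r • c : ↥C₁) : F₀) =
            (j⁻¹ ^ k * (r : F₀)) * (j⁻¹ ^ n * (c : F₀)) := by
          rw [smul_eq_mul]
          push_cast
          rw [pow_add]
          ring
        have h2 : j⁻¹ ^ (k + n) * ((r • c : ↥C₁) : F₀) ∈ C₂ := by
          rw [h1]
          exact C₂.mul_mem hk hn
        refine ⟨k + n, h2, ?_⟩
        have h3 : (⟨_, h2⟩ : ↥C₂) = ⟨_, hk⟩ * ⟨_, hn⟩ := Subtype.ext h1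
        rw [h3]
        exact x.mul_mem_left _ hnx }
  have hI : I ≠ ⊤ := by
    intro htop
    have h1 : (1 : ↥C₁) ∈ I := by rw [htop]; exact Submodule.mem_top
    obtain ⟨n, hn, hnx⟩ := h1
    have h2 : (⟨_, hn⟩ : ↥C₂) = (⟨j⁻¹, hj₂⟩ : ↥C₂) ^ n := Subtype.ext (by simp)
    rw [h2] at hnx
    exact hjx (hx.mem_of_pow_mem n hnx)
  obtain ⟨x₁, hx₁, hIx₁⟩ := Ideal.exists_le_maximal I hI
  have hϖI : algebraMap A₀ ↥C₁ ϖ ∈ I := by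
    refine ⟨0, ?_, ?_⟩
    · rw [pow_zero, one_mul]
      exact C₂.algebraMap_mem ϖ
    · have : (⟨j⁻¹ ^ 0 * ((algebraMap A₀ ↥C₁ ϖ : ↥C₁) : F₀), by
          rw [pow_zero, one_mul]; exact C₂.algebraMap_mem ϖ⟩ : ↥C₂) = algebraMap A₀ ↥C₂ ϖ := by
        apply Subtype.ext
        show j⁻¹ ^ 0 * ((algebraMap A₀ ↥C₁ ϖ : ↥C₁) : F₀) = ((algebraMap A₀ ↥C₂ ϖ : ↥C₂) : F₀)
        rw [pow_zero, one_mul]
        rfl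
      rw [this]
      exact hϖx
  obtain ⟨g, hg0, a, b, ha, hb, hab⟩ := hc₁ x₁ hx₁ (hIx₁ hϖI)
  obtain ⟨n, hn⟩ := hpow a a.2
  obtain ⟨k, hk⟩ := hpow b b.2
  have han : j⁻¹ ^ (n + k) * (a : F₀) ∈ C₂ := by
    rw [pow_add, mul_comm (j⁻¹ ^ n), mul_assoc]
    exact C₂.mul_mem (hjpow k) hn
  have hbn : j⁻¹ ^ (n + k) * (b : F₀) ∈ C₂ := by
    rw [pow_add, mul_assoc]
    exact C₂.mul_mem (hjpow n) hk
  refine ⟨g, hg0, ⟨_, han⟩, ⟨_, hbn⟩, ?_, ?_, ?_⟩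
  · intro hmem
    exact ha (hIx₁ ⟨n + k, han, hmem⟩)
  · intro hmem
    exact hb (hIx₁ ⟨n + k, hbn, hmem⟩)
  · change v * (j⁻¹ ^ (n + k) * (b : F₀)) = j⁻¹ ^ (n + k) * (a : F₀) * g ^ m
    rw [mul_left_comm, hab, mul_assoc]

end Transfer

end Fermat.Agent.S34.H30
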