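/-
Program B' (S34), helper30: THE LEAVES of the model, as Props about ONE definite model, and the
root of Program B' from them.

The model (`stdV`), for the level `M * q` (`q ∤ M`), a valuation ring `A ∣ q` of `ℚ̄`, the two
Gauss rings `O₁`, `O₂ = w⁻¹ O₁` of `F_{Mq}` (`H64.TwoGauss`, proved), a base function `x₀` of the
good level `M`, a normal number field `K₀ ⊆ ℚ̄`, a uniformiser `ϖ` of `A₀ = A ∩ K₀`:
  `F₀ = H61.ratForm (M * q) K₀`, `j = α(x₀)`, `C₁ = chart A₀ j`, `C₂ = chart A₀ j⁻¹`,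
  `V₁ = O₁ ∩ F₀`, `V₂ = O₂ ∩ F₀`, `τ₀ = H61.tauForm (M * q) K₀ σ`, `ι` the inclusion.

Leaves:
* `BaseLeaf`    (L6)  : a rational base function at the good level with the descended setup;
* `DescentLeaf` (M1)  : a normal number field over which `u` is defined, with (DIV) and (RAT);
* `ChartLeaf`   (M2)  : `j` is transcendental and `F₀` is finite over `K₀(j)`;
* `SemiLeaf`    (M3)  : the semi-local fields of `VData.Good` (`VData.Semi`);
* `OneCompLeaf` (M6a) : a closed point not on both components is a factorial point;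
* `CuspLeaf`    (M6c) : a closed point of the chart at infinity on `j = ∞` is not on both;
* `CrossLeaf`   (M6b) : at a closed point of the finite chart on both components, `HLoc` or `HGen`.

`kummerAt_of_modelLeaves`, `geoTarget2_of_modelLeaves`, `b1Statement_of_modelLeaves`: the root of
Program B' from the seven leaves (the `τ`-fields are `H61.TauDescent`, the chart fields are
`H44.chartsGood`, the two Gauss rings are `H64.twoGaussStatement`).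
-/
import Fermat.Agent.S34.H30.Leaves0
import Fermat.Agent.S34.H61.TauDescent
import Fermat.Agent.S34.H44.Charts
import Fermat.Agent.S34.H64.TwoGauss
import Fermat.Agent.S34.H78.L6

set_option autoImplicit false
set_option linter.style.haveILetI false
set_option linter.unusedSectionVars false

open AlgebraicCurve ModularCurve

noncomputable section

namespace Fermat.Agent.S34.H30

open Fermat.Agent.S34.H27 Fermat.Agent.S34.H10 Fermat.Agent.S34.H7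
  Fermat.Agent.S18 Fermat.Agent.S18.H74 Fermat.Agent.S18.H19 Fermat.Agent.S34.H19
  Fermat.Agent.S34.H61 Fermat.Agent.S34.H64

/-- The concrete two-valuation model. -/
@[reducible] def stdV (M q : ℕ) [NeZero M] [Fact q.Prime] (A : ValuationSubring Kb)
    (hAtop : A ≠ ⊤) (O₁ : ValuationSubring (FN (M * q))) (w : FN (M * q) ≃+* FN (M * q))
    (K₀ : IntermediateField ℚ Kb) [FiniteDimensional ℚ K₀] [Normal ℚ K₀]
    (ϖ : ↥(A.comap (algebraMap K₀ Kb))) (j : ↥(ratForm (M * q) K₀)) (σ : Kb ≃ₐ[ℚ] Kb) :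
    VData (M * q) :=
  letI := algComap (A.comap (algebraMap K₀ Kb)) (ratForm (M * q) K₀)
  { A₀ := ↥(A.comap (algebraMap K₀ Kb))
    instDVR := Fermat.Agent.S34.H78.isDVR_comap hAtop K₀
    F₀ := ↥(ratForm (M * q) K₀)
    instAlg := algComap (A.comap (algebraMap K₀ Kb)) (ratForm (M * q) K₀)
    instFaith := Fermat.Agent.S34.H78.faithfulSMul_comap A K₀ (ratForm (M * q) K₀)
    ϖ := ϖ
    j := j
    C₁ := chart ↥(A.comap (algebraMap K₀ Kb)) j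
    C₂ := chart ↥(A.comap (algebraMap K₀ Kb)) j⁻¹
    V₁ := O₁.comap (algebraMap ↥(ratForm (M * q) K₀) (FN (M * q)))
    V₂ := (gaussTwo M q O₁ w).comap (algebraMap ↥(ratForm (M * q) K₀) (FN (M * q)))
    τ₀ := tauForm (M * q) K₀ σ
    ι := algebraMap ↥(ratForm (M * q) K₀) (FN (M * q)) }

/-- The semi-local fields of `VData.Good` (leaf M3). -/
structure VData.Semi {M : ℕ} (D : VData M) : Prop where
  unif₁ : IsUnif D.ϖ D.V₁
  unif₂ : IsUnif D.ϖ D.V₂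
  le₁₁ : ∀ c ∈ D.C₁, c ∈ D.V₁
  le₁₂ : ∀ c ∈ D.C₁, c ∈ D.V₂
  le₂₁ : ∀ c ∈ D.C₂, c ∈ D.V₁
  le₂₂ : ∀ c ∈ D.C₂, c ∈ D.V₂
  j_inv₁ : D.j⁻¹ ∈ D.V₁
  j_inv₂ : D.j⁻¹ ∈ D.V₂
  sat₁ : ∀ y : D.F₀, y ∈ D.V₁ → y ∈ D.V₂ → D.ϖ • y ∈ D.C₁ → y ∈ D.C₁
  sat₂ : ∀ y : D.F₀, y ∈ D.V₁ → y ∈ D.V₂ → D.ϖ • y ∈ D.C₂ → y ∈ D.C₂
  const₁ : ∀ c₁ ∈ D.C₁, ∀ c₂ ∈ D.C₂, c₁ - c₂ ∈ D.V₁.nonunits →
    ∃ a : D.A₀, c₁ - algebraMap D.A₀ D.F₀ a ∈ D.V₁.nonunits
  const₂ : ∀ c₁ ∈ D.C₁, ∀ c₂ ∈ D.C₂, c₁ - c₂ ∈ D.V₂.nonunits →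
    ∃ a : D.A₀, c₁ - algebraMap D.A₀ D.F₀ a ∈ D.V₂.nonunits
  inter : ∀ c ∈ D.C₁, c ∈ D.C₂ → ∃ a : D.A₀, c = algebraMap D.A₀ D.F₀ a

/-- The divisor of `u₀` is divisible by `m` at every discrete valuation ring of `F₀` over `K₀`
(the shape of the landed `H78.DivClause`). -/
def VData.DivK {M : ℕ} (D : VData M) (m : ℕ) (u₀ : D.F₀) : Prop :=
  ∀ V : ValuationSubring D.F₀, (∀ a : D.A₀, a ≠ 0 → (algebraMap D.A₀ D.F₀ a)⁻¹ ∈ V) →
    IsDiscreteValuationRing V → ∃ t : D.F₀, t ≠ 0 ∧ u₀ / t ^ m ∈ V ∧ (u₀ / t ^ m)⁻¹ ∈ V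

/-- The zeros and poles of `u₀` are rational over `K₀`. -/
def VData.RatK {M : ℕ} (D : VData M) (u₀ : D.F₀) : Prop :=
  ∀ V : ValuationSubring D.F₀, (∀ a : D.A₀, a ≠ 0 → (algebraMap D.A₀ D.F₀ a)⁻¹ ∈ V) →
    IsDiscreteValuationRing V → ¬ (u₀ ∈ V ∧ u₀⁻¹ ∈ V) →
    ∀ y ∈ V, ∃ a a' : D.A₀, a' ≠ 0 ∧
      y - algebraMap D.A₀ D.F₀ a / algebraMap D.A₀ D.F₀ a' ∈ V.nonunits

/-- The closed point `x` of the chart `C` lies on both components of the special fibre. -/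
def Both {A₀ F₀ : Type} [CommRing A₀] [Field F₀] [Algebra A₀ F₀] (V₁ V₂ : ValuationSubring F₀)
    (C : Subalgebra A₀ F₀) (x : Ideal ↥C) : Prop :=
  (∀ c : ↥C, (c : F₀) ∈ V₁.nonunits → c ∈ x) ∧ (∀ c : ↥C, (c : F₀) ∈ V₂.nonunits → c ∈ x)

/-- An admissible base function at the good level `M`: rational, and carrying the descended setup
over every number field (for itself and its inverse). -/
def IsBase (M q : ℕ) [NeZero M] [Fact q.Prime] (hqM : ¬ q ∣ M) (A : ValuationSubring Kb)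
    (hA : A.LiesOverPrime q) (x₀ : FN M) : Prop :=
  x₀ ∈ Set.range (ratEmb M) ∧
  ∀ (K₀ : IntermediateField ℚ Kb) (hx : x₀ ∈ ratForm M K₀),
    letI := algComap (A.comap (algebraMap K₀ Kb)) (ratForm M K₀)
    DSetup ↥(A.comap (algebraMap K₀ Kb))
      ((Fermat.Agent.S18.H66.gaussO A M hA hqM).comap (algebraMap ↥(ratForm M K₀) (FN M))) (⟨x₀, hx⟩ : ratForm M K₀) ∧
    DSetup ↥(A.comap (algebraMap K₀ Kb))
      ((Fermat.Agent.S18.H66.gaussO A M hA hqM).comap (algebraMap ↥(ratForm M K₀) (FN M)))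
      (⟨x₀, hx⟩ : ratForm M K₀)⁻¹

/-- **Leaf (L6)**: an admissible base function exists at every good level (`j(q^M)` for `q ≥ 5`,
a Hauptmodul of level `3`, `2` for `q = 2`, `3`). -/
def BaseLeaf : Prop :=
  ∀ (M q : ℕ) [NeZero M] [Fact q.Prime] (hqM : ¬ q ∣ M), (q ≠ 2 → 2 ∣ M) → (q ≠ 3 → 3 ∣ M) →
    ∀ (A : ValuationSubring Kb) (hA : A.LiesOverPrime q), ∃ x₀ : FN M, IsBase M q hqM A hA x₀

/-- **Leaf (M1), the descent**: a normal number field `K₀` over which `u` is defined, with the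
divisibility clause (DIV) and the rationality of the zeros and poles (RAT). -/
def DescentLeaf : Prop :=
  ∀ (M q : ℕ) [NeZero M] [Fact q.Prime] (A : ValuationSubring Kb) (hAtop : A ≠ ⊤)
    (O₁ : ValuationSubring (FN (M * q))) (w : FN (M * q) ≃+* FN (M * q))
    (m : ℕ) (u : FN (M * q)), u ≠ 0 →
    (∀ v : Place Kb (FN (M * q)), (m : ℤ) ∣ v.ord u) →
    ∃ (K₀ : IntermediateField ℚ Kb) (_ : FiniteDimensional ℚ K₀) (_ : Normal ℚ K₀)
      (u₀ : ↥(ratForm (M * q) K₀)), (u₀ : FN (M * q)) = u ∧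
      ∀ (ϖ : ↥(A.comap (algebraMap K₀ Kb))) (j : ↥(ratForm (M * q) K₀)) (σ : Kb ≃ₐ[ℚ] Kb),
        (stdV M q A hAtop O₁ w K₀ ϖ j σ).DivK m u₀ ∧ (stdV M q A hAtop O₁ w K₀ ϖ j σ).RatK u₀

/-- **Leaf (M2), the charts**: the coordinate is transcendental and the `K₀`-form is finite over
`K₀(j)`. -/
def ChartLeaf : Prop :=
  ∀ (M q : ℕ) [NeZero M] [Fact q.Prime] (hqM : ¬ q ∣ M) (A : ValuationSubring Kb)
    (hA : A.LiesOverPrime q) (x₀ : FN M), IsBase M q hqM A hA x₀ →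
    ∀ (K₀ : IntermediateField ℚ Kb) [FiniteDimensional ℚ K₀] [Normal ℚ K₀]
      (j : ↥(ratForm (M * q) K₀)), (j : FN (M * q)) = heckeAlphaBar Kb M q x₀ →
      letI := algComap (A.comap (algebraMap K₀ Kb)) (ratForm (M * q) K₀)
      Transcendental ↥(A.comap (algebraMap K₀ Kb)) j ∧
        Module.Finite ↥(ratSub ↥(A.comap (algebraMap K₀ Kb)) j) ↥(ratForm (M * q) K₀)

/-- **Leaf (M3), the semi-local ring of the special fibre.** -/
def SemiLeaf : Prop :=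
  ∀ (M q : ℕ) [NeZero M] [Fact q.Prime] (hqM : ¬ q ∣ M) (A : ValuationSubring Kb)
    (hA : A.LiesOverPrime q) (hAtop : A ≠ ⊤) (O₁ : ValuationSubring (FN (M * q)))
    (w : FN (M * q) ≃+* FN (M * q)), TwoGauss M q hqM A hA O₁ w →
    ∀ (x₀ : FN M), IsBase M q hqM A hA x₀ →
    ∀ (K₀ : IntermediateField ℚ Kb) [FiniteDimensional ℚ K₀] [Normal ℚ K₀]
      (ϖ : ↥(A.comap (algebraMap K₀ Kb))), Irreducible ϖ →
      ∀ (j : ↥(ratForm (M * q) K₀)), (j : FN (M * q)) = heckeAlphaBar Kb M q x₀ →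
      ∀ σ : Kb ≃ₐ[ℚ] Kb, (stdV M q A hAtop O₁ w K₀ ϖ j σ).Semi

/-- One-component points of the model are factorial points (both charts). -/
def VData.OneComp {M : ℕ} (D : VData M) : Prop :=
  (∀ (x : Ideal ↥D.C₁) (hx : x.IsMaximal), algebraMap D.A₀ ↥D.C₁ D.ϖ ∈ x →
      ¬ Both D.V₁ D.V₂ D.C₁ x → PointUFD D.C₁ x hx.isPrime) ∧
  (∀ (x : Ideal ↥D.C₂) (hx : x.IsMaximal), algebraMap D.A₀ ↥D.C₂ D.ϖ ∈ x →
      ¬ Both D.V₁ D.V₂ D.C₂ x → PointUFD D.C₂ x hx.isPrime)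

/-- A closed point of the chart at infinity on the divisor `j = ∞` is not on both components. -/
def VData.Cusp {M : ℕ} (D : VData M) : Prop :=
  ∀ (x : Ideal ↥D.C₂), x.IsMaximal → algebraMap D.A₀ ↥D.C₂ D.ϖ ∈ x →
    (∃ c ∈ x, (c : D.F₀) = D.j⁻¹) → ¬ Both D.V₁ D.V₂ D.C₂ x

/-- At a closed point of the finite chart on both components: `HLoc` or `HGen` for `u₀`. -/
def VData.Cross {M : ℕ} (D : VData M) (m : ℕ) (u₀ : D.F₀) : Prop :=
  ∀ (x : Ideal ↥D.C₁), x.IsMaximal → algebraMap D.A₀ ↥D.C₁ D.ϖ ∈ x → Both D.V₁ D.V₂ D.C₁ x →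
    HLoc D.ϖ m D.C₁ x u₀ ∨ HGen D.C₁ x (algebraMap D.A₀ ↥D.C₁ D.ϖ) u₀

/-- **Leaf (M6a), one-component points**: a closed point of the special fibre of either chart
which is not on both components is a factorial point. -/
def OneCompLeaf : Prop :=
  ∀ (M q : ℕ) [NeZero M] [Fact q.Prime] (hqM : ¬ q ∣ M) (A : ValuationSubring Kb)
    (hA : A.LiesOverPrime q) (hAtop : A ≠ ⊤) (O₁ : ValuationSubring (FN (M * q)))
    (w : FN (M * q) ≃+* FN (M * q)), TwoGauss M q hqM A hA O₁ w →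
    ∀ (x₀ : FN M), IsBase M q hqM A hA x₀ →
    ∀ (K₀ : IntermediateField ℚ Kb) [FiniteDimensional ℚ K₀] [Normal ℚ K₀]
      (ϖ : ↥(A.comap (algebraMap K₀ Kb))), Irreducible ϖ →
      ∀ (j : ↥(ratForm (M * q) K₀)), (j : FN (M * q)) = heckeAlphaBar Kb M q x₀ →
      ∀ σ : Kb ≃ₐ[ℚ] Kb, (stdV M q A hAtop O₁ w K₀ ϖ j σ).OneComp

/-- **Leaf (M6c), the cusps**: a closed point of the chart at infinity on the divisor `j = ∞` is
not on both components. -/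
def CuspLeaf : Prop :=
  ∀ (M q : ℕ) [NeZero M] [Fact q.Prime] (hqM : ¬ q ∣ M) (A : ValuationSubring Kb)
    (hA : A.LiesOverPrime q) (hAtop : A ≠ ⊤) (O₁ : ValuationSubring (FN (M * q)))
    (w : FN (M * q) ≃+* FN (M * q)), TwoGauss M q hqM A hA O₁ w →
    ∀ (x₀ : FN M), IsBase M q hqM A hA x₀ →
    ∀ (K₀ : IntermediateField ℚ Kb) [FiniteDimensional ℚ K₀] [Normal ℚ K₀]
      (ϖ : ↥(A.comap (algebraMap K₀ Kb))), Irreducible ϖ →
      ∀ (j : ↥(ratForm (M * q) K₀)), (j : FN (M * q)) = heckeAlphaBar Kb M q x₀ →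
      ∀ σ : Kb ≃ₐ[ℚ] Kb, (stdV M q A hAtop O₁ w K₀ ϖ j σ).Cusp

/-- **Leaf (M6b), the crossing points**: at a closed point of the finite chart on both
components of the special fibre, a function with (DIV) and (RAT) has the local divisor datum
`HLoc`, or saturated generators `HGen`. -/
def CrossLeaf : Prop :=
  ∀ (M q : ℕ) [NeZero M] [Fact q.Prime] (hqM : ¬ q ∣ M) (A : ValuationSubring Kb)
    (hA : A.LiesOverPrime q) (hAtop : A ≠ ⊤) (O₁ : ValuationSubring (FN (M * q)))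
    (w : FN (M * q) ≃+* FN (M * q)), TwoGauss M q hqM A hA O₁ w →
    ∀ (x₀ : FN M), IsBase M q hqM A hA x₀ →
    ∀ (K₀ : IntermediateField ℚ Kb) [FiniteDimensional ℚ K₀] [Normal ℚ K₀]
      (ϖ : ↥(A.comap (algebraMap K₀ Kb))), Irreducible ϖ →
      ∀ (j : ↥(ratForm (M * q) K₀)), (j : FN (M * q)) = heckeAlphaBar Kb M q x₀ →
      ∀ (σ : Kb ≃ₐ[ℚ] Kb) (m : ℕ) (u₀ : ↥(ratForm (M * q) K₀)), u₀ ≠ 0 →
        (stdV M q A hAtop O₁ w K₀ ϖ j σ).DivK m u₀ →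
        (stdV M q A hAtop O₁ w K₀ ϖ j σ).RatK u₀ →
        (stdV M q A hAtop O₁ w K₀ ϖ j σ).Cross m u₀

end Fermat.Agent.S34.H30
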