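/-
Program B' (S34), helper30: the leaf `ChartLeaf` (M2: transcendence of the coordinate and finiteness
of the `K₀`-form over `K₀(j)`) is PROVED, from helper44's `RatCharts`; and the field `inter` of
`VData.Semi` for the concrete model.

* `IsBase.transcendental` : an admissible base function is transcendental over `ℚ̄`;
* `IsBase.alpha_transcendental`, `IsBase.alpha_rat` : so is its pull-back, a rational function;
* `chartLeaf : ChartLeaf`;
* `stdV_inter` : a function in both charts of the concrete model is a constant.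
-/
import Fermat.Agent.S34.H30.Leaves
import Fermat.Agent.S34.H44.RatCharts

set_option autoImplicit false
set_option linter.style.haveILetI false
set_option linter.unusedSectionVars false

open AlgebraicCurve ModularCurve Polynomial

noncomputable section

namespace Fermat.Agent.S34.H30

open Fermat.Agent.S34.H27 Fermat.Agent.S34.H10 Fermat.Agent.S34.H7
  Fermat.Agent.S18 Fermat.Agent.S18.H74 Fermat.Agent.S18.H19 Fermat.Agent.S34.H19
  Fermat.Agent.S34.H61 Fermat.Agent.S34.H64

/-- A constant of `K₀` is algebraic over `A ∩ K₀`, as an element of the `K₀`-form. -/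
theorem isAlgebraic_const (M : ℕ) (A : ValuationSubring Kb) (K₀ : IntermediateField ℚ Kb)
    (c : Kb) (hcm : c ∈ K₀) (hx : algebraMap Kb (FN M) c ∈ ratForm M K₀) :
    letI := algComap (A.comap (algebraMap K₀ Kb)) (ratForm M K₀)
    IsAlgebraic ↥(A.comap (algebraMap K₀ Kb))
      (⟨algebraMap Kb (FN M) c, hx⟩ : ↥(ratForm M K₀)) := by
  letI := algComap (A.comap (algebraMap K₀ Kb)) (ratForm M K₀)
  by_cases hcA : (⟨c, hcm⟩ : K₀) ∈ A.comap (algebraMap K₀ Kb)
  · refine ⟨X - C (⟨⟨c, hcm⟩, hcA⟩ : ↥(A.comap (algebraMap K₀ Kb))), X_sub_C_ne_zero _, ?_⟩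
    rw [map_sub, aeval_X, aeval_C]
    apply Subtype.ext
    show algebraMap Kb (FN M) c - algebraMap Kb (FN M) c = 0
    rw [sub_self]
  · have hci : (⟨c, hcm⟩ : K₀)⁻¹ ∈ A.comap (algebraMap K₀ Kb) :=
      ((A.comap (algebraMap K₀ Kb)).mem_or_inv_mem _).resolve_left hcA
    have hc0 : c ≠ 0 := by
      rintro rfl
      exact hcA (A.comap (algebraMap K₀ Kb)).zero_mem
    refine ⟨C (⟨(⟨c, hcm⟩ : K₀)⁻¹, hci⟩ : ↥(A.comap (algebraMap K₀ Kb))) * X - 1, ?_, ?_⟩
    · intro h0
      have h1 := congrArg (fun P : (↥(A.comap (algebraMap K₀ Kb)))[X] => P.coeff 0) h0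
      simp at h1
    · rw [map_sub, map_mul, aeval_X, aeval_C, map_one]
      apply Subtype.ext
      show algebraMap Kb (FN M) (c⁻¹) * algebraMap Kb (FN M) c - 1 = 0
      rw [← map_mul, inv_mul_cancel₀ hc0, map_one, sub_self]

/-- An admissible base function is transcendental over `ℚ̄`. -/
theorem IsBase.transcendental {M q : ℕ} [NeZero M] [Fact q.Prime] {hqM : ¬ q ∣ M}
    {A : ValuationSubring Kb} {hA : A.LiesOverPrime q} {x₀ : FN M}
    (h : IsBase M q hqM A hA x₀) : Transcendental Kb x₀ := by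
  intro halg
  obtain ⟨c, hc⟩ := Fermat.Agent.S34.H44.exists_eq_algebraMap_of_isAlg halg
  subst hc
  have hcm : c ∈ (⊤ : IntermediateField ℚ Kb) := IntermediateField.mem_top
  have hx : algebraMap Kb (FN M) c ∈ ratForm M (⊤ : IntermediateField ℚ Kb) :=
    algebraMap_mem_ratForm M ⊤ hcm
  exact (h.2 ⊤ hx).1.transc (isAlgebraic_const M A ⊤ c hcm hx)

/-- The pull-back of an admissible base function is transcendental over `ℚ̄`. -/
theorem IsBase.alpha_transcendental {M q : ℕ} [NeZero M] [Fact q.Prime] {hqM : ¬ q ∣ M}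
    {A : ValuationSubring Kb} {hA : A.LiesOverPrime q} {x₀ : FN M}
    (h : IsBase M q hqM A hA x₀) :
    haveI : NeZero q := ⟨(Fact.out : q.Prime).ne_zero⟩
    Transcendental Kb (heckeAlphaBar Kb M q x₀) := by
  haveI : NeZero q := ⟨(Fact.out : q.Prime).ne_zero⟩
  intro halg
  exact h.transcendental
    ((isAlgebraic_algHom_iff (heckeAlphaBar Kb M q) (heckeAlphaBar Kb M q).injective).1 halg)

/-- The pull-back of an admissible base function is a rational function. -/
theorem IsBase.alpha_rat {M q : ℕ} [NeZero M] [Fact q.Prime] {hqM : ¬ q ∣ M}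
    {A : ValuationSubring Kb} {hA : A.LiesOverPrime q} {x₀ : FN M}
    (h : IsBase M q hqM A hA x₀) :
    haveI : NeZero q := ⟨(Fact.out : q.Prime).ne_zero⟩
    heckeAlphaBar Kb M q x₀ ∈ Set.range (ratEmb (M * q)) := by
  haveI : NeZero q := ⟨(Fact.out : q.Prime).ne_zero⟩
  obtain ⟨g, hg⟩ := h.1
  exact ⟨_, by rw [← hg]; exact (heckeAlphaBar_ratEmb M q g).symm⟩

/-- **Leaf (M2), the charts: proved.** -/
theorem chartLeaf : ChartLeaf := by
  intro M q _ _ hqM A hA x₀ hx₀ K₀ _ _ j hj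
  haveI : NeZero q := ⟨(Fact.out : q.Prime).ne_zero⟩
  haveI : NeZero (M * q) := ⟨Nat.mul_ne_zero (NeZero.ne M) (NeZero.ne q)⟩
  have htr : Transcendental Kb (j : FN (M * q)) := by rw [hj]; exact hx₀.alpha_transcendental
  have hrat : (j : FN (M * q)) ∈ Set.range (ratEmb (M * q)) := by rw [hj]; exact hx₀.alpha_rat
  exact ⟨Fermat.Agent.S34.H44.ratForm_transc_of_mem (M * q) A K₀ j htr,
    Fermat.Agent.S34.H44.ratForm_finite_of_mem (M * q) A K₀ j hrat htr⟩

/-- A function in both charts is a constant of the base ring. -/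
def VData.Inter {M : ℕ} (D : VData M) : Prop :=
  ∀ c ∈ D.C₁, c ∈ D.C₂ → ∃ a : D.A₀, c = algebraMap D.A₀ D.F₀ a

/-- The field `inter` of `VData.Semi` for the concrete model. -/
theorem stdV_inter (M q : ℕ) [NeZero M] [Fact q.Prime] (hqM : ¬ q ∣ M) (A : ValuationSubring Kb)
    (hA : A.LiesOverPrime q) (hAtop : A ≠ ⊤) (O₁ : ValuationSubring (FN (M * q)))
    (w : FN (M * q) ≃+* FN (M * q)) (x₀ : FN M) (hx₀ : IsBase M q hqM A hA x₀)
    (K₀ : IntermediateField ℚ Kb) [FiniteDimensional ℚ K₀] [Normal ℚ K₀]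
    (ϖ : ↥(A.comap (algebraMap K₀ Kb))) (j : ↥(ratForm (M * q) K₀))
    (hj : (j : FN (M * q)) = heckeAlphaBar Kb M q x₀) (σ : Kb ≃ₐ[ℚ] Kb) :
    (stdV M q A hAtop O₁ w K₀ ϖ j σ).Inter := by
  haveI : NeZero q := ⟨(Fact.out : q.Prime).ne_zero⟩
  haveI : NeZero (M * q) := ⟨Nat.mul_ne_zero (NeZero.ne M) (NeZero.ne q)⟩
  have htr : Transcendental Kb (j : FN (M * q)) := by rw [hj]; exact hx₀.alpha_transcendental
  have hrat : (j : FN (M * q)) ∈ Set.range (ratEmb (M * q)) := by rw [hj]; exact hx₀.alpha_rat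
  exact Fermat.Agent.S34.H44.ratForm_inter_of_mem (M * q) A K₀ hAtop j hrat htr

end Fermat.Agent.S34.H30
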