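/-
Program B' (S34), helper30: THE ROOT of Program B' from the leaves of `Leaves.lean`.

* `stdV_good`  : the concrete model `stdV` satisfies `VData.Good` (charts: `H44.chartsGood`;
  `τ`-fields: `H61.TauDescent`; semi-local fields: the leaf `SemiLeaf`);
* `VData.div_of_divK` : the divisibility clause over `K₀` gives the one over the base ring;
* `kummerAt_of_modelLeaves` : the function-level target from the seven leaves;
* `geoTarget2_of_modelLeaves`, `b1Statement_of_modelLeaves` : the root.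
-/
import Fermat.Agent.S34.H30.Leaves
import Fermat.Agent.S18.H60.UnitFacts

set_option autoImplicit false
set_option linter.style.haveILetI false
set_option linter.unusedSectionVars false

open AlgebraicCurve ModularCurve

noncomputable section

namespace Fermat.Agent.S34.H30

open Fermat.Agent.S34.H27 Fermat.Agent.S34.H10 Fermat.Agent.S34.H7
  Fermat.Agent.S18 Fermat.Agent.S18.H74 Fermat.Agent.S18.H19 Fermat.Agent.S34.H19
  Fermat.Agent.S34.H61 Fermat.Agent.S34.H64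

/-- The concrete model is good. -/
theorem stdV_good (M q : ℕ) [NeZero M] [Fact q.Prime] (hqM : ¬ q ∣ M) (A : ValuationSubring Kb)
    (hA : A.LiesOverPrime q) (hAtop : A ≠ ⊤) (O₁ : ValuationSubring (FN (M * q)))
    (w : FN (M * q) ≃+* FN (M * q)) (hTG : TwoGauss M q hqM A hA O₁ w)
    (K₀ : IntermediateField ℚ Kb) [FiniteDimensional ℚ K₀] [Normal ℚ K₀]
    (ϖ : ↥(A.comap (algebraMap K₀ Kb))) (hϖ : Irreducible ϖ) (j : ↥(ratForm (M * q) K₀))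
    (hjrat : (j : FN (M * q)) ∈ Set.range (ratEmb (M * q)))
    (hchart : letI := algComap (A.comap (algebraMap K₀ Kb)) (ratForm (M * q) K₀)
      Transcendental ↥(A.comap (algebraMap K₀ Kb)) j ∧
        Module.Finite ↥(ratSub ↥(A.comap (algebraMap K₀ Kb)) j) ↥(ratForm (M * q) K₀))
    (σ : Kb ≃ₐ[ℚ] Kb) (hσ : σ ∈ A.inertiaSubgroupIn ℚ)
    (hsemi : (stdV M q A hAtop O₁ w K₀ ϖ j σ).Semi)
    (m : ℕ) (hm : IsUnit ((m : ℕ) : ↥(A.comap (algebraMap K₀ Kb)))) :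
    (stdV M q A hAtop O₁ w K₀ ϖ j σ).Good m (gal (M * q) σ) := by
  letI := algComap (A.comap (algebraMap K₀ Kb)) (ratForm (M * q) K₀)
  haveI := Fermat.Agent.S34.H78.isDVR_comap hAtop K₀
  haveI := Fermat.Agent.S34.H78.faithfulSMul_comap A K₀ (ratForm (M * q) K₀)
  have hσd := Fermat.Agent.S05.H63.mem_decompositionSubgroup_of_mem_inertiaSubgroupIn hσ
  have hCG := Fermat.Agent.S34.H44.chartsGood j hchart.1 hchart.2
  have hT := tauForm_twoGauss hTG K₀ σ hσ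
  exact
    { irr := hϖ
      unit_m := hm
      j_ne := hCG.j_ne
      icl₁ := hCG.icl₁
      icl₂ := hCG.icl₂
      noeth₁ := hCG.noeth₁
      noeth₂ := hCG.noeth₂
      j_mem₁ := hCG.j_mem₁
      j_mem₂ := hCG.j_mem₂
      fin₁ := hCG.fin₁
      frac₁ := hCG.frac₁
      frac₂ := hCG.frac₂
      glue := hCG.glue
      unif₁ := hsemi.unif₁
      unif₂ := hsemi.unif₂
      le₁₁ := hsemi.le₁₁
      le₁₂ := hsemi.le₁₂
      le₂₁ := hsemi.le₂₁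
      le₂₂ := hsemi.le₂₂
      j_inv₁ := hsemi.j_inv₁
      j_inv₂ := hsemi.j_inv₂
      sat₁ := hsemi.sat₁
      sat₂ := hsemi.sat₂
      const₁ := hsemi.const₁
      const₂ := hsemi.const₂
      inter := hsemi.inter
      τ_mem₁ := fun c => tauForm_mem_chart_iff (M * q) K₀ A σ hσd j hjrat c
      τ_mem₂ := fun c => tauForm_mem_chart_inv_iff (M * q) K₀ A σ hσd j hjrat c
      τ_V₁ := hT.1
      τ_V₂ := hT.2.1
      τ_sub₁ := hT.2.2.1
      τ_sub₂ := hT.2.2.2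
      τ_unif := tauForm_unif (M * q) K₀ A σ hσd ϖ hϖ.ne_zero
      τ_val₁ := fun y hy => (tauForm_val hTG K₀ σ hσd y hy).1
      τ_val₂ := fun y hy => (tauForm_val hTG K₀ σ hσd y hy).2
      ι_τ := fun _ => rfl
      ι_base := fun a => ⟨((a : K₀) : Kb), rfl⟩ }

/-- The divisibility clause over the fraction field of the base gives the one over the base. -/
theorem VData.div_of_divK {M : ℕ} (D : VData M) (hirr : Irreducible D.ϖ) (m : ℕ) (u₀ : D.F₀)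
    (h : D.DivK m u₀) : D.Div m u₀ := by
  intro V hϖV hAV hdvr
  refine h V (fun a ha => ?_) hdvr
  obtain ⟨n, e, rfl⟩ := IsDiscreteValuationRing.eq_unit_mul_pow_irreducible ha hirr
  rw [map_mul, map_pow, mul_inv, ← inv_pow]
  refine V.mul_mem _ _ ?_ (V.pow_mem hϖV n)
  have h1 : (algebraMap D.A₀ D.F₀ (e : D.A₀))⁻¹ = algebraMap D.A₀ D.F₀ ((e⁻¹ : D.A₀ˣ) : D.A₀) :=
    inv_eq_of_mul_eq_one_left (by rw [← map_mul, Units.inv_mul, map_one])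
  rw [h1]
  exact hAV _

/-- The function-level statement for a good two-valuation model with the point leaves. -/
theorem VData.kummer_of_points {M : ℕ} (D : VData M) (m : ℕ) (τ : FF M ≃+* FF M)
    (hD : D.Good m τ) (u₀ : D.F₀) (hu₀0 : u₀ ≠ 0) (hDivK : D.DivK m u₀)
    (hOne : D.OneComp) (hCusp : D.Cusp) (hCross : D.Cross m u₀) :
    ∃ (c : Qb) (w : FF M), c ≠ 0 ∧ w ≠ 0 ∧
      τ (τ (D.ι u₀) / D.ι u₀) / (τ (D.ι u₀) / D.ι u₀) = algebraMap Qb (FF M) c * w ^ m := by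
  have hDiv := D.div_of_divK hD.irr m u₀ hDivK
  have hc₁ : ∀ x : Ideal ↥D.C₁, x.IsMaximal → algebraMap D.A₀ ↥D.C₁ D.ϖ ∈ x →
      ∃ g : D.F₀, g ≠ 0 ∧ ∃ a b : ↥D.C₁, a ∉ x ∧ b ∉ x ∧
        D.τ₀ u₀ / u₀ * (b : D.F₀) = (a : D.F₀) * g ^ m := by
    intro x hx hϖx
    refine cartier_of_point3₁ D m τ hD u₀ hu₀0 hDiv x hx hϖx ?_
    by_cases hB : Both D.V₁ D.V₂ D.C₁ x
    · rcases hCross x hx hϖx hB with h | h
      · exact Or.inr (Or.inr h)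
      · exact Or.inr (Or.inl h)
    · exact Or.inl (hOne.1 x hx hϖx hB)
  have hc₂ : ∀ x : Ideal ↥D.C₂, x.IsMaximal → algebraMap D.A₀ ↥D.C₂ D.ϖ ∈ x →
      ∃ g : D.F₀, g ≠ 0 ∧ ∃ a b : ↥D.C₂, a ∉ x ∧ b ∉ x ∧
        D.τ₀ u₀ / u₀ * (b : D.F₀) = (a : D.F₀) * g ^ m := by
    intro x hx hϖx
    by_cases hjx : (⟨D.j⁻¹, hD.j_mem₂⟩ : ↥D.C₂) ∈ x
    · exact cartier_of_point3₂ D m τ hD u₀ hu₀0 hDiv x hx hϖx
        (Or.inl (hOne.2 x hx hϖx (hCusp x hx hϖx ⟨_, hjx, rfl⟩)))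
    · exact cartier_transfer D.ϖ D.j D.C₁ D.C₂ hD.j_mem₂ hD.glue m (D.τ₀ u₀ / u₀) hc₁ x
        hx.isPrime hϖx hjx
  exact kummer_of_cartierV D m τ hD u₀ hu₀0 hc₁ hc₂

/-- **The function-level target from the leaves.** -/
theorem kummerAt_of_modelLeaves (hbase : BaseLeaf) (hdesc : DescentLeaf) (hchart : ChartLeaf)
    (hsemi : SemiLeaf) (hone : OneCompLeaf) (hcusp : CuspLeaf) (hcross : CrossLeaf)
    (M q p r : ℕ) (hL : LevelHyp2 M q p r) : KummerAt M q p := by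
  obtain ⟨⟨hM, hq, hp, hqp, hqM, hq2, hr, hr12, hrM, hr2, hrq, hrp, hbig⟩, h2, h3⟩ := hL
  obtain ⟨M', hM'⟩ := hqM
  have hM'' : M = M' * q := by rw [hM', mul_comm]
  subst hM''
  haveI : Fact q.Prime := ⟨hq⟩
  haveI : NeZero q := ⟨hq.ne_zero⟩
  haveI : NeZero M' := ⟨by rintro rfl; simp at hM⟩
  have hqM' : ¬ q ∣ M' := by
    rintro ⟨c, rfl⟩
    exact hq2 ⟨c, by ring⟩
  have h2' : q ≠ 2 → 2 ∣ M' := fun hq2' => by
    rcases (Nat.Prime.dvd_mul Nat.prime_two).1 (h2 hq2') with h | h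
    · exact h
    · exact absurd ((Nat.prime_dvd_prime_iff_eq Nat.prime_two hq).1 h).symm hq2'
  have h3' : q ≠ 3 → 3 ∣ M' := fun hq3' => by
    rcases (Nat.Prime.dvd_mul Nat.prime_three).1 (h3 hq3') with h | h
    · exact h
    · exact absurd ((Nat.prime_dvd_prime_iff_eq Nat.prime_three hq).1 h).symm hq3'
  intro n A hA τ hτ u hu hdiv
  have hqpn : ¬ q ∣ p ^ n := fun h =>
    hqp ((Nat.prime_dvd_prime_iff_eq hq hp).1 (hq.dvd_of_dvd_pow h))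
  obtain ⟨hAtop, hpn0, hpnA⟩ := Fermat.Agent.S18.H60.unit_facts_gen A hA (p ^ n) hqpn
  obtain ⟨O₁, w, hTG⟩ := twoGaussStatement M' q hqM' A hA
  obtain ⟨x₀, hx₀⟩ := hbase M' q hqM' h2' h3' A hA
  obtain ⟨K₀, hfin, hnorm, u₀, hu₀, hDR⟩ := hdesc M' q A hAtop O₁ w (p ^ n) u hu hdiv
  haveI := hfin
  haveI := hnorm
  haveI := Fermat.Agent.S34.H78.isDVR_comap hAtop K₀
  obtain ⟨ϖ, hϖ⟩ := IsDiscreteValuationRing.exists_irreducible ↥(A.comap (algebraMap K₀ Kb))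
  obtain ⟨g, hg⟩ := hx₀.1
  have hjmem : heckeAlphaBar Kb M' q x₀ ∈ ratForm (M' * q) K₀ :=
    heckeAlphaBar_mem_ratForm M' q K₀ (by rw [← hg]; exact ratEmb_mem_ratForm M' K₀ g)
  have hjrat : heckeAlphaBar Kb M' q x₀ ∈ Set.range (ratEmb (M' * q)) :=
    ⟨_, by rw [← hg]; exact (heckeAlphaBar_ratEmb M' q g).symm⟩
  have hunit : IsUnit (((p ^ n : ℕ) : ℕ) : ↥(A.comap (algebraMap K₀ Kb))) := by
    have hmem : (((p ^ n : ℕ) : K₀))⁻¹ ∈ A.comap (algebraMap K₀ Kb) := by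
      show algebraMap K₀ Kb (((p ^ n : ℕ) : K₀))⁻¹ ∈ A
      rw [map_inv₀, map_natCast]
      exact hpnA
    refine IsUnit.of_mul_eq_one (⟨_, hmem⟩ : ↥(A.comap (algebraMap K₀ Kb))) ?_
    apply Subtype.ext
    show ((p ^ n : ℕ) : K₀) * (((p ^ n : ℕ) : K₀))⁻¹ = 1
    exact mul_inv_cancel₀ (Nat.cast_ne_zero.mpr hpn0)
  have hGood := stdV_good M' q hqM' A hA hAtop O₁ w hTG K₀ ϖ hϖ ⟨_, hjmem⟩ hjrat
    (hchart M' q hqM' A hA x₀ hx₀ K₀ ⟨_, hjmem⟩ rfl) τ hτ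
    (hsemi M' q hqM' A hA hAtop O₁ w hTG x₀ hx₀ K₀ ϖ hϖ ⟨_, hjmem⟩ rfl τ) (p ^ n) hunit
  have hu₀0 : u₀ ≠ 0 := by
    rintro rfl
    exact hu hu₀.symm
  obtain ⟨hDivK, hRatK⟩ := hDR ϖ ⟨_, hjmem⟩ τ
  obtain ⟨c, w', hc, hw', h⟩ := VData.kummer_of_points
    (stdV M' q A hAtop O₁ w K₀ ϖ ⟨_, hjmem⟩ τ) (p ^ n) (gal (M' * q) τ) hGood u₀ hu₀0 hDivK
    (hone M' q hqM' A hA hAtop O₁ w hTG x₀ hx₀ K₀ ϖ hϖ ⟨_, hjmem⟩ rfl τ)
    (hcusp M' q hqM' A hA hAtop O₁ w hTG x₀ hx₀ K₀ ϖ hϖ ⟨_, hjmem⟩ rfl τ)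
    (hcross M' q hqM' A hA hAtop O₁ w hTG x₀ hx₀ K₀ ϖ hϖ ⟨_, hjmem⟩ rfl τ (p ^ n) u₀
      hu₀0 hDivK hRatK)
  have hιu : (stdV M' q A hAtop O₁ w K₀ ϖ ⟨_, hjmem⟩ τ).ι u₀ = u := hu₀
  rw [hιu] at h
  exact ⟨c, w', hc, hw', h⟩

/-- **The root of Program B' from the leaves.** -/
theorem geoTarget2_of_modelLeaves (hbase : BaseLeaf) (hdesc : DescentLeaf) (hchart : ChartLeaf)
    (hsemi : SemiLeaf) (hone : OneCompLeaf) (hcusp : CuspLeaf) (hcross : CrossLeaf) :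
    GeoTarget2 := by
  intro M q p r hM hq hp hqp hqM hq2 hr hr12 hrM hr2 hrq hrp hbig h2 h3
  exact dictStatement M q p hM hq hp
    (kummerAt_of_modelLeaves hbase hdesc hchart hsemi hone hcusp hcross M q p r
      ⟨⟨hM, hq, hp, hqp, hqM, hq2, hr, hr12, hrM, hr2, hrq, hrp, hbig⟩, h2, h3⟩)

/-- The binding interface of the S34 top from the leaves. -/
theorem b1Statement_of_modelLeaves (hbase : BaseLeaf) (hdesc : DescentLeaf) (hchart : ChartLeaf)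
    (hsemi : SemiLeaf) (hone : OneCompLeaf) (hcusp : CuspLeaf) (hcross : CrossLeaf)
    (N q p : ℕ) [NeZero N] (hq : q.Prime) (hp : p.Prime) (hqp : q ≠ p) (hqN : q ∣ N)
    (hq2 : ¬ q ^ 2 ∣ N) : B1Statement N q p :=
  b1Statement_of_geoTarget2
    (geoTarget2_of_modelLeaves hbase hdesc hchart hsemi hone hcusp hcross) N q p hq hp hqp hqN hq2

end Fermat.Agent.S34.H30
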