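/-
Program B' (S34), helper30: the leaves of the model for the STANDARD base function, and the root
from them (second form; `DescentLeaf` and `ChartLeaf` are discharged).

The point leaves use the modular equation of the base function, so the base function is pinned:
`BaseSpec M q x₀` : `x₀ = j(q^M)` (`jtop M`) for `q ≠ 2, 3`; the Hauptmodul of level two
(`hauptTwo`) for `q = 3`; the Hauptmodul of level three (`hauptThree`) for `q = 2`.

Leaves (each on the concrete model `stdV` of `Leaves.lean`):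
* `BaseLeaf2`    (L6)  : the standard base function is admissible (`IsBase`);
* `SemiLeaf`     (M3)  : unchanged (`Leaves.lean`);
* `OneCompLeaf2` (M6a) : `VData.OneComp` of the model;
* `CuspLeaf2`    (M6c) : `VData.Cusp` of the model;
* `CrossLeaf2`   (M6b) : `VData.Cross` of the model.

`kummerAt_of_modelLeaves2`, `geoTarget2_of_modelLeaves2`, `b1Statement_of_modelLeaves2`: the root.
-/
import Fermat.Agent.S34.H30.Root
import Fermat.Agent.S34.H30.DescentClose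
import Fermat.Agent.S34.H30.ChartClose
import Fermat.Agent.S34.H19.RatHaupt

set_option autoImplicit false
set_option linter.style.haveILetI false
set_option linter.unusedSectionVars false

open AlgebraicCurve ModularCurve

noncomputable section

namespace Fermat.Agent.S34.H30

open Fermat.Agent.S34.H27 Fermat.Agent.S34.H10 Fermat.Agent.S34.H7
  Fermat.Agent.S18 Fermat.Agent.S18.H74 Fermat.Agent.S18.H19 Fermat.Agent.S34.H19
  Fermat.Agent.S34.H61 Fermat.Agent.S34.H64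

/-- The standard base function of the good level `M` at the prime `q`. -/
def BaseSpec (M q : ℕ) [NeZero M] (x₀ : FN M) : Prop :=
  (q ≠ 2 ∧ q ≠ 3 ∧ x₀ = Fermat.Agent.S18.H28.jtop M) ∨
  (q = 3 ∧ ∃ (n : ℕ) (_ : NeZero n) (hN : M = n * 2), x₀ = hauptTwo n M hN) ∨
  (q = 2 ∧ ∃ (n : ℕ) (_ : NeZero n) (hN : M = n * 3), x₀ = hauptThree n M hN)

/-- **Leaf (L6)**: the standard base function is admissible. -/
def BaseLeaf2 : Prop :=
  ∀ (M q : ℕ) [NeZero M] [Fact q.Prime] (hqM : ¬ q ∣ M), (q ≠ 2 → 2 ∣ M) → (q ≠ 3 → 3 ∣ M) →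
    ∀ (A : ValuationSubring Kb) (hA : A.LiesOverPrime q),
      ∃ x₀ : FN M, IsBase M q hqM A hA x₀ ∧ BaseSpec M q x₀

/-- **Leaf (M6a), one-component points** (standard base function). -/
def OneCompLeaf2 : Prop :=
  ∀ (M q : ℕ) [NeZero M] [Fact q.Prime] (hqM : ¬ q ∣ M) (A : ValuationSubring Kb)
    (hA : A.LiesOverPrime q) (hAtop : A ≠ ⊤) (O₁ : ValuationSubring (FN (M * q)))
    (w : FN (M * q) ≃+* FN (M * q)), TwoGauss M q hqM A hA O₁ w →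
    ∀ (x₀ : FN M), IsBase M q hqM A hA x₀ → BaseSpec M q x₀ →
    ∀ (K₀ : IntermediateField ℚ Kb) [FiniteDimensional ℚ K₀] [Normal ℚ K₀]
      (ϖ : ↥(A.comap (algebraMap K₀ Kb))), Irreducible ϖ →
      ∀ (j : ↥(ratForm (M * q) K₀)), (j : FN (M * q)) = heckeAlphaBar Kb M q x₀ →
      ∀ σ : Kb ≃ₐ[ℚ] Kb, (stdV M q A hAtop O₁ w K₀ ϖ j σ).OneComp

/-- **Leaf (M6c), the cusps** (standard base function). -/
def CuspLeaf2 : Prop :=
  ∀ (M q : ℕ) [NeZero M] [Fact q.Prime] (hqM : ¬ q ∣ M) (A : ValuationSubring Kb)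
    (hA : A.LiesOverPrime q) (hAtop : A ≠ ⊤) (O₁ : ValuationSubring (FN (M * q)))
    (w : FN (M * q) ≃+* FN (M * q)), TwoGauss M q hqM A hA O₁ w →
    ∀ (x₀ : FN M), IsBase M q hqM A hA x₀ → BaseSpec M q x₀ →
    ∀ (K₀ : IntermediateField ℚ Kb) [FiniteDimensional ℚ K₀] [Normal ℚ K₀]
      (ϖ : ↥(A.comap (algebraMap K₀ Kb))), Irreducible ϖ →
      ∀ (j : ↥(ratForm (M * q) K₀)), (j : FN (M * q)) = heckeAlphaBar Kb M q x₀ →
      ∀ σ : Kb ≃ₐ[ℚ] Kb, (stdV M q A hAtop O₁ w K₀ ϖ j σ).Cusp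

/-- **Leaf (M6b), the crossing points** (standard base function). -/
def CrossLeaf2 : Prop :=
  ∀ (M q : ℕ) [NeZero M] [Fact q.Prime] (hqM : ¬ q ∣ M) (A : ValuationSubring Kb)
    (hA : A.LiesOverPrime q) (hAtop : A ≠ ⊤) (O₁ : ValuationSubring (FN (M * q)))
    (w : FN (M * q) ≃+* FN (M * q)), TwoGauss M q hqM A hA O₁ w →
    ∀ (x₀ : FN M), IsBase M q hqM A hA x₀ → BaseSpec M q x₀ →
    ∀ (K₀ : IntermediateField ℚ Kb) [FiniteDimensional ℚ K₀] [Normal ℚ K₀]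
      (ϖ : ↥(A.comap (algebraMap K₀ Kb))), Irreducible ϖ →
      ∀ (j : ↥(ratForm (M * q) K₀)), (j : FN (M * q)) = heckeAlphaBar Kb M q x₀ →
      ∀ (σ : Kb ≃ₐ[ℚ] Kb) (m : ℕ) (u₀ : ↥(ratForm (M * q) K₀)), u₀ ≠ 0 →
        (stdV M q A hAtop O₁ w K₀ ϖ j σ).DivK m u₀ →
        (stdV M q A hAtop O₁ w K₀ ϖ j σ).RatK u₀ →
        (stdV M q A hAtop O₁ w K₀ ϖ j σ).Cross m u₀

/-- **The function-level target from the leaves (second form).** -/
theorem kummerAt_of_modelLeaves2 (hbase : BaseLeaf2) (hsemi : SemiLeaf) (hone : OneCompLeaf2)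
    (hcusp : CuspLeaf2) (hcross : CrossLeaf2)
    (M q p r : ℕ) (hL : LevelHyp2 M q p r) : KummerAt M q p := by
  obtain ⟨⟨hM, hq, hp, hqp, hqM, hq2, hr, hr12, hrM, hr2, hrq, hrp, hbig⟩, h2, h3⟩ := hL
  obtain ⟨M', hM'⟩ := hqM
  have hM'' : M = M' * q := by rw [hM', mul_comm]
  subst hM''
  haveI : Fact q.Prime := ⟨hq⟩
  haveI : NeZero q := ⟨hq.ne_zero⟩
  haveI : NeZero M' := ⟨by rintro rfl; simp at hM⟩
  have hqM' : ¬ q ∣ M' := by
    rintro ⟨c, rfl⟩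
    exact hq2 ⟨c, by ring⟩
  have h2' : q ≠ 2 → 2 ∣ M' := fun hq2' => by
    rcases (Nat.Prime.dvd_mul Nat.prime_two).1 (h2 hq2') with h | h
    · exact h
    · exact absurd ((Nat.prime_dvd_prime_iff_eq Nat.prime_two hq).1 h).symm hq2'
  have h3' : q ≠ 3 → 3 ∣ M' := fun hq3' => by
    rcases (Nat.Prime.dvd_mul Nat.prime_three).1 (h3 hq3') with h | h
    · exact h
    · exact absurd ((Nat.prime_dvd_prime_iff_eq Nat.prime_three hq).1 h).symm hq3'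
  intro n A hA τ hτ u hu hdiv
  have hqpn : ¬ q ∣ p ^ n := fun h =>
    hqp ((Nat.prime_dvd_prime_iff_eq hq hp).1 (hq.dvd_of_dvd_pow h))
  obtain ⟨hAtop, hpn0, hpnA⟩ := Fermat.Agent.S18.H60.unit_facts_gen A hA (p ^ n) hqpn
  obtain ⟨O₁, w, hTG⟩ := twoGaussStatement M' q hqM' A hA
  obtain ⟨x₀, hx₀, hspec⟩ := hbase M' q hqM' h2' h3' A hA
  obtain ⟨K₀, hfin, hnorm, u₀, hu₀, hDR⟩ := descentLeaf M' q A hAtop O₁ w (p ^ n) u hu hdiv
  haveI := hfin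
  haveI := hnorm
  haveI := Fermat.Agent.S34.H78.isDVR_comap hAtop K₀
  obtain ⟨ϖ, hϖ⟩ := IsDiscreteValuationRing.exists_irreducible ↥(A.comap (algebraMap K₀ Kb))
  obtain ⟨g, hg⟩ := hx₀.1
  have hjmem : heckeAlphaBar Kb M' q x₀ ∈ ratForm (M' * q) K₀ :=
    heckeAlphaBar_mem_ratForm M' q K₀ (by rw [← hg]; exact ratEmb_mem_ratForm M' K₀ g)
  have hjrat : heckeAlphaBar Kb M' q x₀ ∈ Set.range (ratEmb (M' * q)) := hx₀.alpha_rat
  have hunit : IsUnit (((p ^ n : ℕ) : ℕ) : ↥(A.comap (algebraMap K₀ Kb))) := by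
    have hmem : (((p ^ n : ℕ) : K₀))⁻¹ ∈ A.comap (algebraMap K₀ Kb) := by
      show algebraMap K₀ Kb (((p ^ n : ℕ) : K₀))⁻¹ ∈ A
      rw [map_inv₀, map_natCast]
      exact hpnA
    refine IsUnit.of_mul_eq_one (⟨_, hmem⟩ : ↥(A.comap (algebraMap K₀ Kb))) ?_
    apply Subtype.ext
    show ((p ^ n : ℕ) : K₀) * (((p ^ n : ℕ) : K₀))⁻¹ = 1
    exact mul_inv_cancel₀ (Nat.cast_ne_zero.mpr hpn0)
  have hGood := stdV_good M' q hqM' A hA hAtop O₁ w hTG K₀ ϖ hϖ ⟨_, hjmem⟩ hjrat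
    (chartLeaf M' q hqM' A hA x₀ hx₀ K₀ ⟨_, hjmem⟩ rfl) τ hτ
    (hsemi M' q hqM' A hA hAtop O₁ w hTG x₀ hx₀ K₀ ϖ hϖ ⟨_, hjmem⟩ rfl τ) (p ^ n) hunit
  have hu₀0 : u₀ ≠ 0 := by
    rintro rfl
    exact hu hu₀.symm
  obtain ⟨hDivK, hRatK⟩ := hDR ϖ ⟨_, hjmem⟩ τ
  obtain ⟨c, w', hc, hw', h⟩ := VData.kummer_of_points
    (stdV M' q A hAtop O₁ w K₀ ϖ ⟨_, hjmem⟩ τ) (p ^ n) (gal (M' * q) τ) hGood u₀ hu₀0 hDivK
    (hone M' q hqM' A hA hAtop O₁ w hTG x₀ hx₀ hspec K₀ ϖ hϖ ⟨_, hjmem⟩ rfl τ)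
    (hcusp M' q hqM' A hA hAtop O₁ w hTG x₀ hx₀ hspec K₀ ϖ hϖ ⟨_, hjmem⟩ rfl τ)
    (hcross M' q hqM' A hA hAtop O₁ w hTG x₀ hx₀ hspec K₀ ϖ hϖ ⟨_, hjmem⟩ rfl τ (p ^ n) u₀
      hu₀0 hDivK hRatK)
  have hιu : (stdV M' q A hAtop O₁ w K₀ ϖ ⟨_, hjmem⟩ τ).ι u₀ = u := hu₀
  rw [hιu] at h
  exact ⟨c, w', hc, hw', h⟩

/-- **The root of Program B' from the leaves (second form).** -/
theorem geoTarget2_of_modelLeaves2 (hbase : BaseLeaf2) (hsemi : SemiLeaf) (hone : OneCompLeaf2)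
    (hcusp : CuspLeaf2) (hcross : CrossLeaf2) : GeoTarget2 := by
  intro M q p r hM hq hp hqp hqM hq2 hr hr12 hrM hr2 hrq hrp hbig h2 h3
  exact dictStatement M q p hM hq hp
    (kummerAt_of_modelLeaves2 hbase hsemi hone hcusp hcross M q p r
      ⟨⟨hM, hq, hp, hqp, hqM, hq2, hr, hr12, hrM, hr2, hrq, hrp, hbig⟩, h2, h3⟩)

/-- The binding interface of the S34 top from the leaves (second form). -/
theorem b1Statement_of_modelLeaves2 (hbase : BaseLeaf2) (hsemi : SemiLeaf) (hone : OneCompLeaf2)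
    (hcusp : CuspLeaf2) (hcross : CrossLeaf2)
    (N q p : ℕ) [NeZero N] (hq : q.Prime) (hp : p.Prime) (hqp : q ≠ p) (hqN : q ∣ N)
    (hq2 : ¬ q ^ 2 ∣ N) : B1Statement N q p :=
  b1Statement_of_geoTarget2
    (geoTarget2_of_modelLeaves2 hbase hsemi hone hcusp hcross) N q p hq hp hqp hqN hq2

end Fermat.Agent.S34.H30
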