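/-
Program B' (S34), helper30: THE FINAL INTERFACE.  The root is helper77's `H77.RootB` (leaves
relative to a predicate `B` on the base function and to `H77.LevelOK`); the instance of `B` is
helper78's standard base function (`H78.IsStdBase`), here `StdB`.

* `StdB M q x₀`    : `x₀` is the standard base function (`j(q^M)` for `q ≠ 2, 3`, the Hauptmodul of
                     level two for `q = 3`, of level three for `q = 2`);
* closed leaves    : `baseLeafB_std` (helper78), `descentLeaf`, `chartLeaf`;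
* OPEN leaves      : `H77.SemiLeafB StdB`, `H77.OneCompLeafB StdB`, `H77.CuspLeafB StdB`,
                     `H77.CrossLeafB StdB`  (the leaves of `Leaves.lean` / `Leaves2.lean` imply
                     them: `semiLeafB_std_of`, `oneCompLeafB_std_of2`, `cuspLeafB_std_of2`,
                     `crossLeafB_std_of2`);
* `geoTarget2_of_pointLeaves`, `b1Statement_of_pointLeaves` : the root from the four open leaves.
-/
import Fermat.Agent.S34.H77.RootB
import Fermat.Agent.S34.H78.LeafBaseStd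
import Fermat.Agent.S34.H30.Leaves2

set_option autoImplicit false
set_option linter.style.haveILetI false
set_option linter.unusedSectionVars false

open AlgebraicCurve ModularCurve

noncomputable section

namespace Fermat.Agent.S34.H30

open Fermat.Agent.S34.H27 Fermat.Agent.S34.H10 Fermat.Agent.S34.H7
  Fermat.Agent.S18 Fermat.Agent.S18.H74 Fermat.Agent.S18.H19 Fermat.Agent.S34.H19
  Fermat.Agent.S34.H61 Fermat.Agent.S34.H64

/-- The standard base function, as a predicate `B` for `H77.RootB`. -/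
def StdB (M q : ℕ) (x₀ : FN M) : Prop :=
  ∃ _ : NeZero M, Fermat.Agent.S34.H78.IsStdBase M q x₀

theorem StdB.isStd {M q : ℕ} [NeZero M] {x₀ : FN M} (h : StdB M q x₀) :
    Fermat.Agent.S34.H78.IsStdBase M q x₀ := by
  obtain ⟨_, h⟩ := h
  exact h

theorem stdB_of_isStd {M q : ℕ} [NeZero M] {x₀ : FN M}
    (h : Fermat.Agent.S34.H78.IsStdBase M q x₀) : StdB M q x₀ :=
  ⟨inferInstance, h⟩

theorem StdB.baseSpec {M q : ℕ} [NeZero M] {x₀ : FN M} (h : StdB M q x₀) : BaseSpec M q x₀ :=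
  h.isStd

/-- The three cases of the standard base function. -/
theorem StdB.cases {M q : ℕ} [NeZero M] {x₀ : FN M} (h : StdB M q x₀) :
    (q ≠ 2 ∧ q ≠ 3 ∧ x₀ = Fermat.Agent.S18.H28.jtop M) ∨
    (q = 3 ∧ ∃ (n : ℕ) (_ : NeZero n) (hN : M = n * 2), x₀ = hauptTwo n M hN) ∨
    (q = 2 ∧ ∃ (n : ℕ) (_ : NeZero n) (hN : M = n * 3), x₀ = hauptThree n M hN) :=
  h.isStd

/-- **Leaf (L6), closed** (helper78's `baseLeafStd`). -/
theorem baseLeafB_std : Fermat.Agent.S34.H77.BaseLeafB StdB :=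
  fun M q _ _ hqM hlev A hA => by
    obtain ⟨x₀, hx₀, hstd⟩ := Fermat.Agent.S34.H78.baseLeafStd M q hqM hlev.2.1 hlev.2.2 A hA
    exact ⟨x₀, hx₀, stdB_of_isStd hstd⟩

/-- `SemiLeaf` gives the relative form. -/
theorem semiLeafB_std_of (h : SemiLeaf) : Fermat.Agent.S34.H77.SemiLeafB StdB :=
  Fermat.Agent.S34.H77.semiLeafB_of StdB h

/-- `OneCompLeaf2` gives the relative form. -/
theorem oneCompLeafB_std_of2 (h : OneCompLeaf2) : Fermat.Agent.S34.H77.OneCompLeafB StdB :=
  fun M q _ _ hqM _ A hA hAtop O₁ w hTG x₀ hx₀ hB K₀ _ _ ϖ hϖ j hj σ =>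
    h M q hqM A hA hAtop O₁ w hTG x₀ hx₀ hB.baseSpec K₀ ϖ hϖ j hj σ

/-- `CuspLeaf2` gives the relative form. -/
theorem cuspLeafB_std_of2 (h : CuspLeaf2) : Fermat.Agent.S34.H77.CuspLeafB StdB :=
  fun M q _ _ hqM _ A hA hAtop O₁ w hTG x₀ hx₀ hB K₀ _ _ ϖ hϖ j hj σ =>
    h M q hqM A hA hAtop O₁ w hTG x₀ hx₀ hB.baseSpec K₀ ϖ hϖ j hj σ

/-- `CrossLeaf2` gives the relative form. -/
theorem crossLeafB_std_of2 (h : CrossLeaf2) : Fermat.Agent.S34.H77.CrossLeafB StdB :=
  fun M q _ _ hqM _ A hA hAtop O₁ w hTG x₀ hx₀ hB K₀ _ _ ϖ hϖ j hj σ m u₀ hu₀ hD hR =>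
    h M q hqM A hA hAtop O₁ w hTG x₀ hx₀ hB.baseSpec K₀ ϖ hϖ j hj σ m u₀ hu₀ hD hR

/-- **The root of Program B' from the four open leaves.** -/
theorem geoTarget2_of_pointLeaves (hsemi : Fermat.Agent.S34.H77.SemiLeafB StdB)
    (hone : Fermat.Agent.S34.H77.OneCompLeafB StdB)
    (hcusp : Fermat.Agent.S34.H77.CuspLeafB StdB)
    (hcross : Fermat.Agent.S34.H77.CrossLeafB StdB) : GeoTarget2 :=
  Fermat.Agent.S34.H77.geoTarget2_of_modelLeavesB StdB baseLeafB_std descentLeaf
    (Fermat.Agent.S34.H77.chartLeafB_of StdB chartLeaf) hsemi hone hcusp hcross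

/-- The binding interface of the S34 top from the four open leaves. -/
theorem b1Statement_of_pointLeaves (hsemi : Fermat.Agent.S34.H77.SemiLeafB StdB)
    (hone : Fermat.Agent.S34.H77.OneCompLeafB StdB)
    (hcusp : Fermat.Agent.S34.H77.CuspLeafB StdB)
    (hcross : Fermat.Agent.S34.H77.CrossLeafB StdB)
    (N q p : ℕ) [NeZero N] (hq : q.Prime) (hp : p.Prime) (hqp : q ≠ p) (hqN : q ∣ N)
    (hq2 : ¬ q ^ 2 ∣ N) : B1Statement N q p :=
  b1Statement_of_geoTarget2 (geoTarget2_of_pointLeaves hsemi hone hcusp hcross) N q p hq hp hqp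
    hqN hq2

end Fermat.Agent.S34.H30
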