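/-
Program B' (S34), helper30: the leaf `SemiLeaf` (M3: the semi-local fields of the model) is
PROVED, from helper61's `vGood_ratForm_of_finrank` (on helper10's `vGood_of_dsetup` and helper6's
two-extension lemma), helper59's F-DEG `finrank_alphaForm`, and `stdV_inter`.
-/
import Fermat.Agent.S34.H30.Final
import Fermat.Agent.S34.H61.Concrete3
import Fermat.Agent.S34.H59.FDeg

set_option autoImplicit false
set_option linter.style.haveILetI false
set_option linter.unusedSectionVars false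

open AlgebraicCurve ModularCurve

noncomputable section

namespace Fermat.Agent.S34.H30

open Fermat.Agent.S34.H27 Fermat.Agent.S34.H10 Fermat.Agent.S34.H7
  Fermat.Agent.S18 Fermat.Agent.S18.H74 Fermat.Agent.S18.H19 Fermat.Agent.S34.H19
  Fermat.Agent.S34.H61 Fermat.Agent.S34.H64

/-- The semi-local fields from helper10's `VGood` and the field `inter`. -/
theorem VData.semi_of_vGood {M : ℕ} (D : VData M) (h : VGood D.ϖ D.j D.C₁ D.C₂ D.V₁ D.V₂)
    (hi : D.Inter) : D.Semi :=
  { unif₁ := h.unif₁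
    unif₂ := h.unif₂
    le₁₁ := h.le₁₁
    le₁₂ := h.le₁₂
    le₂₁ := h.le₂₁
    le₂₂ := h.le₂₂
    j_inv₁ := h.j_inv₁
    j_inv₂ := h.j_inv₂
    sat₁ := h.sat₁
    sat₂ := h.sat₂
    const₁ := h.const₁
    const₂ := h.const₂
    inter := hi }

/-- **Leaf (M3), the semi-local ring of the special fibre: proved.** -/
theorem semiLeaf : SemiLeaf := by
  intro M q _ _ hqM A hA hAtop O₁ w hTG x₀ hx₀ K₀ _ _ ϖ hϖ j hj σ
  haveI : NeZero q := ⟨(Fact.out : q.Prime).ne_zero⟩
  haveI := Fermat.Agent.S34.H78.isDVR_comap hAtop K₀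
  have hxm : x₀ ∈ ratForm M K₀ := mem_ratForm_of_mem_range M K₀ hx₀.1
  obtain ⟨hS, hS'⟩ := hx₀.2 K₀ hxm
  have hdeg := Fermat.Agent.S34.H59.finrank_alphaForm M q K₀ Fact.out hqM
  have hV := vGood_ratForm_of_finrank hTG K₀ ϖ hϖ ⟨x₀, hxm⟩ hS hS' hdeg
  have hjeq : j = alphaForm M q K₀ ⟨x₀, hxm⟩ := by
    apply Subtype.ext
    exact hj
  refine VData.semi_of_vGood _ ?_ (stdV_inter M q hqM A hA hAtop O₁ w x₀ hx₀ K₀ ϖ j hj σ)
  rw [hjeq]
  exact hV

/-- **Leaf (M3), relative form for the standard base function: proved.** -/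
theorem semiLeafB_std : Fermat.Agent.S34.H77.SemiLeafB StdB := semiLeafB_std_of semiLeaf

/-- **The root of Program B' from the three open point leaves.** -/
theorem geoTarget2_of_three (hone : Fermat.Agent.S34.H77.OneCompLeafB StdB)
    (hcusp : Fermat.Agent.S34.H77.CuspLeafB StdB)
    (hcross : Fermat.Agent.S34.H77.CrossLeafB StdB) : GeoTarget2 :=
  geoTarget2_of_pointLeaves semiLeafB_std hone hcusp hcross

end Fermat.Agent.S34.H30
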