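/-
Program B' (S34), helper30: THE INTEGRATION POINT.  Closed leaves: base (helper78), descent,
chart, semi-local (M3), cusps (helper79 `cuspLeafB_std`), crossing points modulo the regular node
(helper77 `crossLeafB_std_of_regular`).

`geoTarget2_of_two` : the root of Program B' from the two remaining statements
* `H77.OneCompLeafB StdB`   (M6a, one-component points), and
* `H77.RegularCrossLeaf`    (M6b, the regular node over the inertia field).
-/
import Fermat.Agent.S34.H30.SemiClose
import Fermat.Agent.S34.H79.CuspLeafB
import Fermat.Agent.S34.H77.CrossFinal

set_option autoImplicit false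

noncomputable section

namespace Fermat.Agent.S34.H30

open Fermat.Agent.S34.H27

/-- **The root of Program B' from the two remaining leaves.** -/
theorem geoTarget2_of_two (hone : Fermat.Agent.S34.H77.OneCompLeafB StdB)
    (hreg : Fermat.Agent.S34.H77.RegularCrossLeaf) : GeoTarget2 :=
  geoTarget2_of_three hone Fermat.Agent.S34.H79.cuspLeafB_std
    (Fermat.Agent.S34.H77.crossLeafB_std_of_regular hreg)

end Fermat.Agent.S34.H30
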