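/-
Program B' (S34), helper30: the root of Program B' from the LAST open statement.

Closed leaves: base (helper78), descent, chart, semi-local (M3), cusps (helper79), one-component
points (helper4 `oneCompLeafB_std`), crossing points for `j(q^M)` (helper68 / helper77), the
Hauptmodul supplier (β) (helper43 `hauptBeta`).

`geoTarget2_of_hauptUnr` : `H27.GeoTarget2` from `H68.HauptUnr` (the unramifiedness supplier at the
crossing points of the Hauptmodul charts, `q ∈ {2, 3}`).
-/
import Fermat.Agent.S34.H30.Close
import Fermat.Agent.S34.H4.OneCompLeaf
import Fermat.Agent.S34.H43.HauptBetaClose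
import Fermat.Agent.S34.H68.RegCross

set_option autoImplicit false

noncomputable section

namespace Fermat.Agent.S34.H30

open Fermat.Agent.S34.H27

/-- **The root of Program B' from the last open statement.** -/
theorem geoTarget2_of_hauptUnr (hU : Fermat.Agent.S34.H68.HauptUnr) : GeoTarget2 :=
  geoTarget2_of_two Fermat.Agent.S34.H4.oneCompLeafB_std
    (Fermat.Agent.S34.H68.regularCrossLeaf_of Fermat.Agent.S34.H43.hauptBeta hU)

end Fermat.Agent.S34.H30
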