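/-
Program B' (S34), helper30: the root of Program B', unconditionally.

`hauptUnr_std : H68.HauptUnr` is the short adapter from helper36's `H36.hunr_stdB` (the
unramifiedness supplier at the crossing points, all three standard base functions) to the
statement consumed by `geoTarget2_of_hauptUnr`; `geoTarget2 : H27.GeoTarget2` follows.
-/
import Fermat.Agent.S34.H30.Last
import Fermat.Agent.S34.H36.HUnrStd

set_option autoImplicit false
set_option linter.style.haveILetI false
set_option linter.unusedSectionVars false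

open Polynomial IntermediateField ModularCurve AlgebraicCurve

noncomputable section

namespace Fermat.Agent.S34.H30

open Fermat.Agent.S18 Fermat.Agent.S18.H74 Fermat.Agent.S18.H19 Fermat.Agent.S34.H19
  Fermat.Agent.S34.H61 Fermat.Agent.S34.H64 Fermat.Agent.S34.H6
  Fermat.Agent.S34.H77 Fermat.Agent.S34.H92 Fermat.Agent.S34.H27

/-- **Supplier (U) for the Hauptmoduln**, from helper36's `hunr_stdB`. -/
theorem hauptUnr_std : Fermat.Agent.S34.H68.HauptUnr := by
  intro M q _ hqF hqM hlev A hA hAtop O₁ w hTG x₀ hx₀ hH K₀ _ _ hx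
  haveI : NeZero q := ⟨hqF.out.ne_zero⟩
  haveI : FiniteDimensional ℚ ↥(inertiaField A K₀) := finiteDimensional_inertiaField A K₀
  haveI : IsDiscreteValuationRing ↥(A.comap (algebraMap (inertiaField A K₀) Kb)) :=
    Fermat.Agent.S34.H78.isDVR_comap hAtop (inertiaField A K₀)
  obtain ⟨π, e, g, hIB, -, -⟩ := inertiaBase_exists A K₀ q hqF.out hA
  have hqA : Irreducible ((q : ℕ) : ↥(A.comap (algebraMap (inertiaField A K₀) Kb))) :=
    hIB.irreducible_natCast hqF.out hA
  have hB : StdB M q x₀ := stdB_of_isStd (Or.inr hH)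
  intro y hy h₁ h₂ Q hQ hqQ hle
  haveI := hy.isPrime
  exact Fermat.Agent.S34.H36.hunr_stdB M q hqM A hA O₁ w (inertiaField A K₀) hlev hTG x₀ hx₀ hB
    hqA hx y h₁ h₂ Q hQ hqQ hle

/-- **The root of Program B'.** -/
theorem geoTarget2 : GeoTarget2 := geoTarget2_of_hauptUnr hauptUnr_std

end Fermat.Agent.S34.H30
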