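/-
Program B' (S34), helper30: the leaf `DescentLeaf` (M1: the descent with (DIV) and (RAT)) is
PROVED, from helper78's `div_modular` / `rat_ratForm` and helper61's `exists_normal_numberField`.
-/
import Fermat.Agent.S34.H30.Leaves
import Fermat.Agent.S34.H78.DivRatAdapt

set_option autoImplicit false
set_option linter.style.haveILetI false
set_option linter.unusedSectionVars false

open AlgebraicCurve ModularCurve

noncomputable section

namespace Fermat.Agent.S34.H30

open Fermat.Agent.S34.H27 Fermat.Agent.S34.H10 Fermat.Agent.S34.H7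
  Fermat.Agent.S18 Fermat.Agent.S18.H74 Fermat.Agent.S18.H19 Fermat.Agent.S34.H19
  Fermat.Agent.S34.H61 Fermat.Agent.S34.H64

/-- **Leaf (M1), the descent: proved.** -/
theorem descentLeaf : DescentLeaf := by
  intro M q _ _ A hAtop O₁ w m u hu hord
  haveI : NeZero (M * q) := ⟨Nat.mul_ne_zero (NeZero.ne M) (Fact.out : q.Prime).ne_zero⟩
  obtain ⟨Z, hZ⟩ := Fermat.Agent.S34.H78.rat_ratForm (M * q) u hu
  obtain ⟨K₀, hfin, hnorm, hK₀⟩ := exists_normal_numberField Z
  obtain ⟨u₀, hu₀, hrat⟩ := hZ K₀ hK₀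
  refine ⟨K₀, hfin, hnorm, u₀, hu₀, fun ϖ j σ => ⟨?_, ?_⟩⟩
  · intro V hinv _
    exact Fermat.Agent.S34.H78.div_modular (M * q) K₀ m u₀
      (fun P => by rw [hu₀]; exact hord P) V
      (Fermat.Agent.S18.H61.algebraMap_mem_of_forall_inv_mem (A.comap (algebraMap K₀ Kb)) V hinv)
  · intro V hinv _ hnu y hy
    exact hrat A V hinv hnu y hy

end Fermat.Agent.S34.H30
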