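/-
Program B' (S34), helper30: the MODEL leaf with local certificates, in the `ChartData` form of
`S34/H30/Skeleton.lean` (one semi-local ring `O` of the special fibre; this is the shape of
helper10's `H10.SemiGood`).

* `ChartData.Div`, `LocalModelStatementO` : as `VData.Div`, `LocalModelStatement` of `Model.lean`
  with `ChartData.Good` in place of `VData.Good`;
* `geoTarget2_of_localModelO`, `b1Statement_of_localModelO` : the root of Program B' from this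
  leaf alone (Step 1 = `H7.step1_chart`, Step 2 = `H10.exists_pow_mul_mem_of_cartier`,
  L7 = `dictStatement`).
-/
import Fermat.Agent.S34.H30.Model

set_option autoImplicit false
set_option linter.style.haveILetI false

open AlgebraicCurve ModularCurve

noncomputable section

namespace Fermat.Agent.S34.H30

open Fermat.Agent.S34.H27 Fermat.Agent.S34.H10 Fermat.Agent.S34.H7
  Fermat.Agent.S18.H47 Fermat.Agent.S18.H86

/-- The divisor of `u₀` is divisible by `m` at every horizontal discrete valuation ring. -/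
def ChartData.Div {M : ℕ} (D : ChartData M) (m : ℕ) (u₀ : D.F₀) : Prop :=
  ∀ V : ValuationSubring D.F₀, (algebraMap D.A₀ D.F₀ D.ϖ)⁻¹ ∈ V →
    (∀ a : D.A₀, algebraMap D.A₀ D.F₀ a ∈ V) → IsDiscreteValuationRing V →
    ∃ t : D.F₀, t ≠ 0 ∧ u₀ / t ^ m ∈ V ∧ (u₀ / t ^ m)⁻¹ ∈ V

/-- **The model leaf** (`ChartData` form with local certificates). -/
def LocalModelStatementO : Prop :=
  ∀ M q p r : ℕ, LevelHyp2 M q p r →
    ∀ (n : ℕ) (A : ValuationSubring Qb), A.LiesOverPrime q → ∀ τ ∈ A.inertiaSubgroupIn ℚ,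
      ∀ u : FF M, u ≠ 0 → (∀ v : Place Qb (FF M), ((p ^ n : ℕ) : ℤ) ∣ v.ord u) →
        ∃ D : ChartData M, D.Good (p ^ n) (gal M τ) ∧ ∃ u₀ : D.F₀, D.ι u₀ = u ∧
          D.Div (p ^ n) u₀ ∧
          (∀ (x : Ideal ↥D.C₁) (hx : x.IsMaximal), algebraMap D.A₀ ↥D.C₁ D.ϖ ∈ x →
            PointOK D.C₁ x hx.isPrime (algebraMap D.A₀ ↥D.C₁ D.ϖ) u₀) ∧
          (∀ (x : Ideal ↥D.C₂) (hx : x.IsMaximal), algebraMap D.A₀ ↥D.C₂ D.ϖ ∈ x →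
            PointOK D.C₂ x hx.isPrime (algebraMap D.A₀ ↥D.C₂ D.ϖ) u₀)

section Local

variable {A₀ F₀ : Type} [CommRing A₀] [Field F₀] [Algebra A₀ F₀] [FaithfulSMul A₀ F₀]

/-- Step 1 at a closed point of a chart, from the local certificate (`O` form). -/
theorem cartier_of_pointOK_O (ϖ : A₀) (hϖ0 : ϖ ≠ 0) (C O : Subalgebra A₀ F₀)
    [IsIntegrallyClosed ↥C] [IsNoetherianRing ↥C]
    (hfrac : ∀ y : F₀, ∃ a ∈ C, ∃ b ∈ C, b ≠ 0 ∧ y = a / b) (hCO : C ≤ O)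
    (hsat : ∀ y ∈ O, ϖ • y ∈ C → y ∈ C)
    (τ : F₀ ≃+* F₀) (hτC : ∀ c : F₀, τ c ∈ C ↔ c ∈ C)
    (hτ1 : ∀ y ∈ O, Dv ϖ O (τ y - y))
    (hτϖ : ∃ e : A₀ˣ, τ (algebraMap A₀ F₀ ϖ) = algebraMap A₀ F₀ (e * ϖ))
    (m : ℕ) (u : F₀) (hu : u ≠ 0)
    (hdiv : ∀ V : ValuationSubring F₀, (algebraMap A₀ F₀ ϖ)⁻¹ ∈ V →
      (∀ a : A₀, algebraMap A₀ F₀ a ∈ V) → IsDiscreteValuationRing V →
      ∃ t : F₀, t ≠ 0 ∧ u / t ^ m ∈ V ∧ (u / t ^ m)⁻¹ ∈ V)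
    (x : Ideal ↥C) (hx : x.IsMaximal) (hϖx : algebraMap A₀ ↥C ϖ ∈ x)
    (hok : PointOK C x hx.isPrime (algebraMap A₀ ↥C ϖ) u) :
    ∃ g : F₀, g ≠ 0 ∧ ∃ a b : ↥C, a ∉ x ∧ b ∉ x ∧ τ u / u * (b : F₀) = (a : F₀) * g ^ m := by
  haveI : IsFractionRing ↥C F₀ := Fermat.Agent.S34.H54.isFractionRing_of_forall_div C hfrac
  haveI : x.IsPrime := hx.isPrime
  have hinj : Function.Injective (algebraMap A₀ F₀) := FaithfulSMul.algebraMap_injective A₀ F₀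
  have hπ0 : algebraMap A₀ ↥C ϖ ≠ 0 := by
    intro h0
    apply hϖ0
    apply hinj
    have h1 : ((algebraMap A₀ ↥C ϖ : ↥C) : F₀) = 0 := by rw [h0]; rfl
    rw [map_zero]
    exact h1
  have hcoe : ((algebraMap A₀ ↥C ϖ : ↥C) : F₀) = algebraMap A₀ F₀ ϖ := rfl
  have hτC₁ : ∀ c ∈ C, τ c ∈ C := fun c hc => (hτC c).2 hc
  have hτC₂ : ∀ c ∈ C, τ.symm c ∈ C := fun c hc => by
    have h := (hτC (τ.symm c)).1
    rw [τ.apply_symm_apply] at h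
    exact h hc
  have hτ1' : ∀ c ∈ C, ∃ d ∈ C, τ c = c + ((algebraMap A₀ ↥C ϖ : ↥C) : F₀) * d := by
    intro c hc
    obtain ⟨d, hd, h1⟩ := hτ1 c (hCO hc)
    refine ⟨d, hsat d hd ?_, ?_⟩
    · rw [← h1]
      exact C.sub_mem (hτC₁ c hc) hc
    · rw [hcoe, ← Algebra.smul_def, ← h1]
      ring
  have hτπ : ∃ ε ∈ C, ((algebraMap A₀ ↥C ϖ : ↥C) : F₀) =
      τ ((algebraMap A₀ ↥C ϖ : ↥C) : F₀) * ε := by
    obtain ⟨e, he⟩ := hτϖ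
    refine ⟨algebraMap A₀ F₀ ((e⁻¹ : A₀ˣ) : A₀), C.algebraMap_mem _, ?_⟩
    rw [hcoe, he, ← map_mul]
    congr 1
    rw [mul_comm (e : A₀) ϖ, mul_assoc, Units.mul_inv, mul_one]
  have hdiv' := hdiv_of_forall_dvr C x (algebraMap A₀ ↥C ϖ) m u
    (fun V hV hC hdvr => hdiv V (by rw [← hcoe]; exact hV)
      (fun a => hC (algebraMap A₀ ↥C a)) hdvr)
  rcases hok with hufd | hgen
  · exact step1_chart_of_ufd C x (algebraMap A₀ ↥C ϖ) hπ0 hϖx τ hτC₁ hτC₂ hτ1' hτπ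
      (Localization.AtPrime x) hufd m u hu hdiv'
  · exact step1_chart C x hx.isPrime (algebraMap A₀ ↥C ϖ) hπ0 hϖx τ hτC₁ hτC₂ hτ1' hτπ m u hu
      hdiv' hgen

end Local

/-- The function-level target from the model leaf (`ChartData` form). -/
theorem kummerAt_of_localModelO (hmodel : LocalModelStatementO)
    (M q p r : ℕ) (hL : LevelHyp2 M q p r) : KummerAt M q p := by
  intro n A hA τ hτ u hu hdiv
  obtain ⟨D, hD, u₀, hu₀, hDiv, h₁, h₂⟩ := hmodel M q p r hL n A hA τ hτ u hu hdiv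
  haveI := hD.icl₁
  haveI := hD.icl₂
  haveI := hD.noeth₁
  haveI := hD.noeth₂
  have hu₀0 : u₀ ≠ 0 := by
    rintro rfl
    exact hu (by rw [← hu₀, map_zero])
  have hτu₀0 : D.τ₀ u₀ ≠ 0 := (map_ne_zero D.τ₀).2 hu₀0
  set v₀ : D.F₀ := D.τ₀ u₀ / u₀ with hv₀
  have hv₀0 : v₀ ≠ 0 := div_ne_zero hτu₀0 hu₀0
  have hval := hD.τ_val u₀ hu₀0
  have hϖ0 : D.ϖ ≠ 0 := hD.irr.ne_zero
  have hc₁ : ∀ x : Ideal ↥D.C₁, x.IsMaximal → algebraMap D.A₀ ↥D.C₁ D.ϖ ∈ x →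
      ∃ g : D.F₀, g ≠ 0 ∧ ∃ a b : ↥D.C₁, a ∉ x ∧ b ∉ x ∧
        v₀ * (b : D.F₀) = (a : D.F₀) * g ^ (p ^ n) :=
    fun x hx hϖx => cartier_of_pointOK_O D.ϖ hϖ0 D.C₁ D.O hD.frac₁ hD.le₁ hD.sat₁ D.τ₀
      hD.τ_mem₁ hD.τ_sub hD.τ_unif (p ^ n) u₀ hu₀0 hDiv x hx hϖx (h₁ x hx hϖx)
  have hc₂ : ∀ x : Ideal ↥D.C₂, x.IsMaximal → algebraMap D.A₀ ↥D.C₂ D.ϖ ∈ x →
      ∃ g : D.F₀, g ≠ 0 ∧ ∃ a b : ↥D.C₂, a ∉ x ∧ b ∉ x ∧
        v₀ * (b : D.F₀) = (a : D.F₀) * g ^ (p ^ n) :=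
    fun x hx hϖx => cartier_of_pointOK_O D.ϖ hϖ0 D.C₂ D.O hD.frac₂ hD.le₂ hD.sat₂ D.τ₀
      hD.τ_mem₂ hD.τ_sub hD.τ_unif (p ^ n) u₀ hu₀0 hDiv x hx hϖx (h₂ x hx hϖx)
  have hε : v₀ / (1 : D.F₀) ^ (p ^ n) ∈ D.O := by
    rw [one_pow, div_one]
    exact hval.1
  have hε' : (v₀ / (1 : D.F₀) ^ (p ^ n))⁻¹ ∈ D.O := by
    rw [one_pow, div_one, hv₀, inv_div]
    exact hval.2
  obtain ⟨h, hh0, hh₁, hh₂⟩ := Fermat.Agent.S34.H10.exists_pow_mul_mem_of_cartier D.ϖ hD.irr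
    (p ^ n) hD.unit_m D.j hD.j_ne D.C₁ D.C₂ hD.j_mem₁ hD.j_mem₂ hD.fin₁ hD.frac₁ hD.glue D.O
    hD.le₁ hD.le₂ hD.j_inv_mem hD.not_unit hD.root hD.sat₁ hD.sat₂ hD.const D.τ₀
    (fun c hc => (hD.τ_mem₁ c).2 hc) (fun c hc => (hD.τ_mem₂ c).2 hc) hD.τ_mem hD.τ_sub
    v₀ 1 hv₀0 one_ne_zero hε hε' hc₁ hc₂
  obtain ⟨c, hc⟩ := hD.ι_const _ hh₁ hh₂
  have hιh : D.ι h ≠ 0 := (map_ne_zero D.ι).2 hh0
  have hιv : D.ι v₀ = gal M τ u / u := by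
    rw [hv₀, map_div₀, hD.ι_τ, hu₀]
  have hτv₀0 : D.τ₀ v₀ ≠ 0 := (map_ne_zero D.τ₀).2 hv₀0
  have hιτv : D.ι (D.τ₀ v₀ / v₀) = gal M τ (gal M τ u / u) / (gal M τ u / u) := by
    rw [map_div₀ D.ι, hD.ι_τ, hιv]
  have hkey : gal M τ (gal M τ u / u) / (gal M τ u / u) * D.ι h ^ (p ^ n) =
      algebraMap Qb (FF M) c := by
    rw [← hc, map_mul D.ι, map_pow D.ι, hιτv]
  have hlhs0 : gal M τ (gal M τ u / u) / (gal M τ u / u) ≠ 0 := by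
    rw [← hιτv]
    exact (map_ne_zero D.ι).2 (div_ne_zero hτv₀0 hv₀0)
  refine ⟨c, (D.ι h)⁻¹, ?_, inv_ne_zero hιh, ?_⟩
  · rintro rfl
    rw [map_zero] at hkey
    exact mul_ne_zero hlhs0 (pow_ne_zero _ hιh) hkey
  · rw [← hkey, inv_pow, mul_assoc, mul_inv_cancel₀ (pow_ne_zero _ hιh), mul_one]

/-- **The root of Program B' from the model leaf alone** (`ChartData` form). -/
theorem geoTarget2_of_localModelO (hmodel : LocalModelStatementO) : GeoTarget2 := by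
  intro M q p r hM hq hp hqp hqM hq2 hr hr12 hrM hr2 hrq hrp hbig h2 h3
  exact dictStatement M q p hM hq hp (kummerAt_of_localModelO hmodel M q p r
    ⟨⟨hM, hq, hp, hqp, hqM, hq2, hr, hr12, hrM, hr2, hrq, hrp, hbig⟩, h2, h3⟩)

/-- The binding interface of the S34 top from the model leaf alone (`ChartData` form). -/
theorem b1Statement_of_localModelO (hmodel : LocalModelStatementO) (N q p : ℕ) [NeZero N]
    (hq : q.Prime) (hp : p.Prime) (hqp : q ≠ p) (hqN : q ∣ N) (hq2 : ¬ q ^ 2 ∣ N) :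
    B1Statement N q p :=
  b1Statement_of_geoTarget2 (geoTarget2_of_localModelO hmodel) N q p hq hp hqp hqN hq2

end Fermat.Agent.S34.H30
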